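import Fermat.Agent.LandauSquares.Main
import Mathlib.Analysis.Real.Pi.Leibniz
import Mathlib.NumberTheory.EulerProduct.Basic
import Mathlib.NumberTheory.LSeries.RiemannZeta
import Mathlib.Analysis.Normed.Group.Tannery

/-!
# The constant of Landau and Ramanujan

`F(s) = ∑ f(n) n^(-s)` has `F² = ζ(s) L(s, χ) H(2 s) / (1 - 2^(-s))`, where `H` is the Euler
product over the primes `≡ 3 (mod 4)`; near `s = 1` this identifies `C` as `√(H(2) / 2)`.
-/

set_option autoImplicit false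

noncomputable section

namespace FA.LandauSquares

open Finset Filter MeasureTheory
open scoped Topology

/-- `∑ a(n) n^(-s)`. -/
def dirSum (a : ℕ → ℝ) (s : ℝ) : ℝ := ∑' n : ℕ, a n * (n : ℝ) ^ (-s)

theorem summable_term {a : ℕ → ℝ} (ha : ∀ n, |a n| ≤ 1) {s : ℝ} (hs : 1 < s) :
    Summable fun n : ℕ => ‖a n * (n : ℝ) ^ (-s)‖ := by
  refine Summable.of_nonneg_of_le (fun _ => norm_nonneg _) (fun n => ?_)
    (Real.summable_nat_rpow.2 (show -s < -1 by linarith))
  rw [norm_mul, Real.norm_eq_abs, Real.norm_eq_abs, 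
    abs_of_nonneg (by positivity : 0 ≤ (n : ℝ) ^ (-s))]
  exact mul_le_of_le_one_left (by positivity) (ha n)

theorem tendsto_partial_dirSum {a : ℕ → ℝ} (ha : ∀ n, |a n| ≤ 1) {s : ℝ} (hs : 1 < s) :
    Tendsto (fun M => ∑ n ∈ Icc 1 M, a n * (n : ℝ) ^ (-s)) atTop (𝓝 (dirSum a s)) := by
  refine (((summable_term ha hs).of_norm.hasSum.tendsto_sum_nat).comp
    (tendsto_add_atTop_nat 1)).congr fun M => ?_
  simp only [Function.comp_apply]
  refine (sum_subset (fun n hn => ?_) fun n hn hn' => ?_).symm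
  · rw [mem_Icc] at hn
    exact mem_range.2 (by omega)
  · rw [mem_range] at hn
    rw [mem_Icc] at hn'
    obtain rfl : n = 0 := by omega
    rw [Nat.cast_zero, Real.zero_rpow (by linarith), mul_zero]

/-! ### The Abelian theorem -/

theorem sum_rpow_eq (δ : ℝ) (M : ℕ) : ∑ n ∈ Icc 1 M, sqInd n * (n : ℝ) ^ (-(1 + δ)) =
    ∑ n ∈ Icc 1 M, logMean n * ((n : ℝ) ^ (-δ) - ((n + 1 : ℕ) : ℝ) ^ (-δ)) +
      logMean M * ((M + 1 : ℕ) : ℝ) ^ (-δ) := by
  induction M with
  | zero => simp [logMean]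
  | succ M ih =>
    rw [sum_Icc_succ_top (by omega), sum_Icc_succ_top (by omega), ih,
      show logMean (M + 1) = logMean M + sqInd (M + 1) / ((M + 1 : ℕ) : ℝ) from
        sum_Icc_succ_top (by omega) _,
      neg_add, Real.rpow_add (Nat.cast_pos.2 (Nat.succ_pos M)), Real.rpow_neg_one]
    ring

/-- The finite sums of `√(log n)` against the increments of `n^(-δ)`. -/
def gammaSum (δ : ℝ) (M : ℕ) : ℝ :=
  ∑ n ∈ Icc 1 M, Real.sqrt (Real.log n) * ((n : ℝ) ^ (-δ) - ((n + 1 : ℕ) : ℝ) ^ (-δ))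

theorem rpow_step_nonneg {δ : ℝ} (hδ : 0 < δ) {n : ℕ} (hn : 1 ≤ n) :
    0 ≤ (n : ℝ) ^ (-δ) - ((n + 1 : ℕ) : ℝ) ^ (-δ) := sub_nonneg.2
  (Real.rpow_le_rpow_of_nonpos (Nat.cast_pos.2 hn) (Nat.cast_le.2 (Nat.le_succ n))
    (neg_nonpos.2 hδ.le))

theorem sum_rpow_step (δ : ℝ) (M : ℕ) :
    ∑ n ∈ Icc 1 M, ((n : ℝ) ^ (-δ) - ((n + 1 : ℕ) : ℝ) ^ (-δ)) =
      1 - ((M + 1 : ℕ) : ℝ) ^ (-δ) := by
  induction M with
  | zero => simp
  | succ M ih =>
    rw [sum_Icc_succ_top (by omega), ih]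
    ring

theorem integral_step (δ : ℝ) {n : ℕ} (hn : 1 ≤ n) :
    ∫ t in Real.log n..Real.log (n + 1 : ℕ), δ * Real.exp (-(δ * t)) =
      (n : ℝ) ^ (-δ) - ((n + 1 : ℕ) : ℝ) ^ (-δ) := by
  have hd : ∀ t ∈ Set.uIcc (Real.log n) (Real.log (n + 1 : ℕ)),
      HasDerivAt (fun t => -Real.exp (-(δ * t))) (δ * Real.exp (-(δ * t))) t := fun t _ => by
    have h := (((hasDerivAt_id t).const_mul δ).neg.exp).neg
    simp only [id_eq, Pi.neg_apply, mul_one, mul_neg, neg_neg] at h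
    rw [mul_comm]
    exact h
  rw [intervalIntegral.integral_eq_sub_of_hasDerivAt hd
      ((by fun_prop : Continuous fun t => δ * Real.exp (-(δ * t))).intervalIntegrable _ _),
    Real.rpow_def_of_pos (Nat.cast_pos.2 hn),
    Real.rpow_def_of_pos (Nat.cast_pos.2 (Nat.succ_pos n))]
  simp only [Nat.succ_eq_add_one, Nat.cast_add, Nat.cast_one]
  ring_nf

theorem gammaSum_bounds {δ : ℝ} (hδ : 0 < δ) (M : ℕ) :
    gammaSum δ M ≤ ∫ t in (0 : ℝ)..Real.log (M + 1 : ℕ),
        Real.sqrt t * (δ * Real.exp (-(δ * t))) ∧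
      ∫ t in (0 : ℝ)..Real.log (M + 1 : ℕ), Real.sqrt t * (δ * Real.exp (-(δ * t))) ≤
        gammaSum δ M + 1 := by
  have hcont : Continuous fun t : ℝ => Real.sqrt t * (δ * Real.exp (-(δ * t))) := by fun_prop
  have key : gammaSum δ M ≤ ∫ t in (0 : ℝ)..Real.log (M + 1 : ℕ),
      Real.sqrt t * (δ * Real.exp (-(δ * t))) ∧
      ∫ t in (0 : ℝ)..Real.log (M + 1 : ℕ), Real.sqrt t * (δ * Real.exp (-(δ * t))) ≤
        gammaSum δ M + (1 - ((M + 1 : ℕ) : ℝ) ^ (-δ)) := by
    induction M with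
    | zero => simp [gammaSum]
    | succ M ih =>
      have hle : Real.log (M + 1 : ℕ) ≤ Real.log (M + 1 + 1 : ℕ) :=
        Real.log_le_log (Nat.cast_pos.2 (Nat.succ_pos M)) (Nat.cast_le.2 (Nat.le_succ _))
      rw [← intervalIntegral.integral_add_adjacent_intervals (b := Real.log (M + 1 : ℕ))
        (hcont.intervalIntegrable _ _) (hcont.intervalIntegrable _ _), gammaSum,
        sum_Icc_succ_top (by omega), ← gammaSum, ← sum_rpow_step δ (M + 1),
        sum_Icc_succ_top (by omega), sum_rpow_step δ M, ← integral_step δ (Nat.succ_pos M)]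
      have hwc : Continuous fun t => δ * Real.exp (-(δ * t)) := by fun_prop
      have h1 : Real.sqrt (Real.log (M + 1 : ℕ)) *
          ∫ t in Real.log (M + 1 : ℕ)..Real.log (M + 1 + 1 : ℕ), δ * Real.exp (-(δ * t)) ≤
            ∫ t in Real.log (M + 1 : ℕ)..Real.log (M + 1 + 1 : ℕ),
              Real.sqrt t * (δ * Real.exp (-(δ * t))) := by
        rw [← intervalIntegral.integral_const_mul]
        exact intervalIntegral.integral_mono_on hle ((hwc.const_mul _).intervalIntegrable _ _)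
          (hcont.intervalIntegrable _ _)
          fun t ht => mul_le_mul_of_nonneg_right (Real.sqrt_le_sqrt ht.1) (by positivity)
      have h2 : ∫ t in Real.log (M + 1 : ℕ)..Real.log (M + 1 + 1 : ℕ),
          Real.sqrt t * (δ * Real.exp (-(δ * t))) ≤ (Real.sqrt (Real.log (M + 1 : ℕ)) + 1) *
            ∫ t in Real.log (M + 1 : ℕ)..Real.log (M + 1 + 1 : ℕ), δ * Real.exp (-(δ * t)) := by
        rw [← intervalIntegral.integral_const_mul]
        refine intervalIntegral.integral_mono_on hle (hcont.intervalIntegrable _ _)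
          ((hwc.const_mul _).intervalIntegrable _ _)
          fun t ht => mul_le_mul_of_nonneg_right ?_ (by positivity)
        have hl : Real.log (M + 1 + 1 : ℕ) ≤ Real.log (M + 1 : ℕ) + 1 := by
          have hM : (0 : ℝ) < (M + 1 : ℕ) := Nat.cast_pos.2 (Nat.succ_pos M)
          have := Real.log_le_sub_one_of_pos (show (0 : ℝ) < (M + 1 + 1 : ℕ) / (M + 1 : ℕ) from
            div_pos (Nat.cast_pos.2 (Nat.succ_pos _)) hM)
          rw [Real.log_div (by positivity) hM.ne', div_sub_one hM.ne'] at this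
          have h : (((M + 1 + 1 : ℕ) : ℝ) - ((M + 1 : ℕ) : ℝ)) / ((M + 1 : ℕ) : ℝ) ≤ 1 := by
            rw [div_le_one hM]
            push_cast
            linarith
          linarith
        have h0 : 0 ≤ Real.log (M + 1 : ℕ) := Real.log_natCast_nonneg _
        rw [Real.sqrt_le_left (by positivity)]
        nlinarith [ht.2, Real.mul_self_sqrt h0, Real.sqrt_nonneg (Real.log (M + 1 : ℕ))]
      constructor <;> linarith [ih.1, ih.2]
  exact ⟨key.1, key.2.trans
    (by linarith [Real.rpow_nonneg (Nat.cast_nonneg (α := ℝ) (M + 1)) (-δ)])⟩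

theorem tendsto_sqrt_exp_integral {δ : ℝ} (hδ : 0 < δ) :
    Tendsto (fun M : ℕ => ∫ t in (0 : ℝ)..Real.log (M + 1 : ℕ),
      Real.sqrt t * (δ * Real.exp (-(δ * t)))) atTop
        (𝓝 (Real.sqrt Real.pi / 2 / Real.sqrt δ)) := by
  have e : ∫ t in Set.Ioi (0 : ℝ), Real.sqrt t * (δ * Real.exp (-(δ * t))) =
      Real.sqrt Real.pi / 2 / Real.sqrt δ := by
    have h := Real.integral_rpow_mul_exp_neg_mul_Ioi (show (0 : ℝ) < 3 / 2 by norm_num) hδ
    rw [show (3 / 2 : ℝ) - 1 = 1 / 2 by norm_num] at h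
    simp only [← Real.sqrt_eq_rpow] at h
    simp_rw [mul_left_comm (Real.sqrt _) δ]
    rw [integral_const_mul, h, show (3 / 2 : ℝ) = 1 / 2 + 1 by norm_num,
      Real.Gamma_add_one (by norm_num), Real.Gamma_one_half_eq,
      Real.rpow_add (by positivity), Real.rpow_one, ← Real.sqrt_eq_rpow, one_div δ, Real.sqrt_inv]
    field_simp
  have hi : IntegrableOn (fun t => Real.sqrt t * (δ * Real.exp (-(δ * t)))) (Set.Ioi 0) := by
    refine Integrable.of_integral_ne_zero ?_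
    rw [e]
    have := Real.pi_pos
    positivity
  rw [← e]
  exact intervalIntegral_tendsto_integral_Ioi 0 hi
    (Real.tendsto_log_atTop.comp (tendsto_natCast_atTop_atTop.comp (tendsto_add_atTop_nat 1)))

/-- **The Abelian theorem**: `F(1 + δ) √δ → c √π / 2` if `L(N) ∼ c √(log N)`. -/
theorem tendsto_dirSum_sqrt {c : ℝ}
    (hc : Tendsto (fun N : ℕ => logMean N / Real.sqrt (Real.log N)) atTop (𝓝 c)) :
    Tendsto (fun δ : ℝ => dirSum sqInd (1 + δ) * Real.sqrt δ) (𝓝[>] 0)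
      (𝓝 (c * (Real.sqrt Real.pi / 2))) := by
  have ha : ∀ n, |sqInd n| ≤ 1 := fun n => by
    rw [abs_of_nonneg (sqInd_nonneg n)]
    exact sqInd_le_one n
  obtain ⟨G, hG⟩ : ∃ G, G = Real.sqrt Real.pi / 2 := ⟨_, rfl⟩
  have hG0 : 0 < G := hG ▸ by positivity
  rw [← hG]
  refine Metric.tendsto_nhds.2 fun η hη => ?_
  obtain ⟨ε, hε, hεG⟩ : ∃ ε, 0 < ε ∧ ε * G ≤ η / 2 := ⟨η / (2 * G), by positivity, by
    rw [div_mul_eq_mul_div, div_le_iff₀ (by positivity)]
    nlinarith⟩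
  obtain ⟨N₀, hN₀⟩ := eventually_atTop.1 ((Metric.tendsto_nhds.1 hc ε hε).and
    ((Real.tendsto_log_atTop.comp tendsto_natCast_atTop_atTop).eventually_gt_atTop 0))
  obtain ⟨K, hKdef⟩ : ∃ K, K = ∑ n ∈ range N₀, |logMean n - c * Real.sqrt (Real.log n)| :=
    ⟨_, rfl⟩
  have hK0 : 0 ≤ K := hKdef ▸ sum_nonneg fun n _ => abs_nonneg _
  have hK : ∀ n, |logMean n - c * Real.sqrt (Real.log n)| ≤ ε * Real.sqrt (Real.log n) + K := by
    intro n
    have hs0 := Real.sqrt_nonneg (Real.log n)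
    rcases lt_or_ge n N₀ with hn | hn
    · have := single_le_sum (f := fun n => |logMean n - c * Real.sqrt (Real.log n)|)
        (fun i _ => abs_nonneg _) (mem_range.2 hn)
      rw [← hKdef] at this
      nlinarith
    · obtain ⟨h1, h2⟩ := hN₀ n hn
      have hs : 0 < Real.sqrt (Real.log n) := Real.sqrt_pos.2 h2
      rw [Real.dist_eq, div_sub' hs.ne', abs_div, abs_of_pos hs, div_lt_iff₀ hs] at h1
      rw [mul_comm c]
      linarith
  have hbound : ∀ δ > 0, |dirSum sqInd (1 + δ) - c * (G / Real.sqrt δ)| ≤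
      ε * (G / Real.sqrt δ) + (K + |c|) := by
    intro δ hδ
    have htail : Tendsto (fun M : ℕ => logMean M * ((M + 1 : ℕ) : ℝ) ^ (-δ)) atTop (𝓝 0) := by
      have h2 : Tendsto (fun M : ℕ => (1 + Real.log (M + 1 : ℕ)) * ((M + 1 : ℕ) : ℝ) ^ (-δ))
          atTop (𝓝 0) := by
        have hx : Tendsto (fun M : ℕ => ((M + 1 : ℕ) : ℝ)) atTop atTop :=
          tendsto_natCast_atTop_atTop.comp (tendsto_add_atTop_nat 1)
        have h := (((tendsto_rpow_neg_atTop hδ).add
          (isLittleO_log_rpow_atTop hδ).tendsto_div_nhds_zero)).comp hx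
        rw [add_zero] at h
        refine h.congr fun M => ?_
        simp only [Function.comp_apply]
        rw [Real.rpow_neg (Nat.cast_nonneg _)]
        ring
      refine squeeze_zero (fun M => mul_nonneg
        (sum_nonneg fun n _ => div_nonneg (sqInd_nonneg n) (Nat.cast_nonneg n)) (by positivity))
        (fun M => mul_le_mul_of_nonneg_right ?_ (by positivity)) h2
      refine (sum_le_sum (g := fun n : ℕ => (n : ℝ)⁻¹) fun n _ => ?_).trans ?_
      · rw [div_eq_mul_inv]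
        exact mul_le_of_le_one_left (by positivity) (sqInd_le_one n)
      · have h3 := harmonic_le_one_add_log M
        rw [harmonic_eq_sum_Icc] at h3
        push_cast at h3
        refine h3.trans (add_le_add le_rfl ?_)
        rcases Nat.eq_zero_or_pos M with rfl | hM
        · simp
        · exact Real.log_le_log (Nat.cast_pos.2 hM) (Nat.cast_le.2 (Nat.le_succ M))
    have hlim : Tendsto (fun M : ℕ => ∑ n ∈ Icc 1 M, sqInd n * (n : ℝ) ^ (-(1 + δ)) -
        logMean M * ((M + 1 : ℕ) : ℝ) ^ (-δ) - c * ∫ t in (0 : ℝ)..Real.log (M + 1 : ℕ),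
          Real.sqrt t * (δ * Real.exp (-(δ * t)))) atTop
        (𝓝 (dirSum sqInd (1 + δ) - c * (G / Real.sqrt δ))) := by
      have h := ((tendsto_partial_dirSum ha (show 1 < 1 + δ by linarith)).sub htail).sub
        ((tendsto_sqrt_exp_integral hδ).const_mul c)
      rwa [sub_zero, ← hG] at h
    refine le_of_tendsto_of_tendsto hlim.abs (((hG ▸ tendsto_sqrt_exp_integral hδ :
      Tendsto _ atTop (𝓝 (G / Real.sqrt δ))).const_mul ε).add_const (K + |c|))
      (Eventually.of_forall fun M => ?_)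
    dsimp only
    rw [sum_rpow_eq, add_sub_cancel_right]
    obtain ⟨hg1, hg2⟩ := gammaSum_bounds hδ M
    have h1 : |∑ n ∈ Icc 1 M, logMean n * ((n : ℝ) ^ (-δ) - ((n + 1 : ℕ) : ℝ) ^ (-δ)) -
        c * gammaSum δ M| ≤ ε * gammaSum δ M + K := by
      rw [gammaSum, mul_sum, ← sum_sub_distrib]
      refine (abs_sum_le_sum_abs _ _).trans ((sum_le_sum (g := fun n : ℕ =>
        (ε * Real.sqrt (Real.log n) + K) * ((n : ℝ) ^ (-δ) - ((n + 1 : ℕ) : ℝ) ^ (-δ)))
        fun n hn => ?_).trans ?_)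
      · rw [← mul_assoc c, ← sub_mul, abs_mul,
          abs_of_nonneg (rpow_step_nonneg hδ (mem_Icc.1 hn).1)]
        exact mul_le_mul_of_nonneg_right (hK n) (rpow_step_nonneg hδ (mem_Icc.1 hn).1)
      · simp only [add_mul, mul_assoc, sum_add_distrib, ← mul_sum]
        rw [sum_rpow_step]
        have := Real.rpow_nonneg (Nat.cast_nonneg (α := ℝ) (M + 1)) (-δ)
        nlinarith
    obtain ⟨I, hI⟩ : ∃ I, I = ∫ t in (0 : ℝ)..Real.log (M + 1 : ℕ),
      Real.sqrt t * (δ * Real.exp (-(δ * t))) := ⟨_, rfl⟩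
    simp only [← hI] at hg1 hg2 ⊢
    have h2 : |c * gammaSum δ M - c * I| ≤ |c| := by
      rw [← mul_sub, abs_mul]
      exact mul_le_of_le_one_right (abs_nonneg c) (abs_le.2 ⟨by linarith, by linarith⟩)
    have h3 := mul_le_mul_of_nonneg_left hg1 hε.le
    obtain ⟨a1, a2⟩ := abs_le.1 h1
    obtain ⟨b1, b2⟩ := abs_le.1 h2
    rw [abs_le]
    constructor <;> linarith
  have hs : Tendsto (fun δ : ℝ => (K + |c|) * Real.sqrt δ) (𝓝[>] 0) (𝓝 0) := by
    simpa using ((Real.continuous_sqrt.tendsto 0).mono_left nhdsWithin_le_nhds).const_mul (K + |c|)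
  filter_upwards [self_mem_nhdsWithin, hs.eventually (eventually_lt_nhds (half_pos hη))]
    with δ hδ hsmall
  have hsd : 0 < Real.sqrt δ := Real.sqrt_pos.2 hδ
  rw [Real.dist_eq, show dirSum sqInd (1 + δ) * Real.sqrt δ - c * G =
    (dirSum sqInd (1 + δ) - c * (G / Real.sqrt δ)) * Real.sqrt δ by field_simp, abs_mul,
    abs_of_pos hsd]
  refine lt_of_le_of_lt (mul_le_mul_of_nonneg_right (hbound δ hδ) hsd.le) ?_
  rw [add_mul, mul_assoc, div_mul_cancel₀ _ hsd.ne']
  linarith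

/-! ### The Euler product -/

/-- The indicator of the numbers with all prime factors `≡ 3 (mod 4)`. -/
def threeInd (n : ℕ) : ℝ := if n ≠ 0 ∧ ∀ p ∈ n.primeFactors, p % 4 = 3 then 1 else 0

/-- `n ↦ a(n) n^(-s)` for a completely multiplicative `a`. -/
def twistHom (a : ℕ → ℝ) (h1 : a 1 = 1) (hm : ∀ x y, a (x * y) = a x * a y) (s : ℝ) (hs : s ≠ 0) :
    ℕ →*₀ ℝ where
  toFun n := a n * (n : ℝ) ^ (-s)
  map_zero' := by rw [Nat.cast_zero, Real.zero_rpow (neg_ne_zero.2 hs), mul_zero]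
  map_one' := by rw [h1, Nat.cast_one, Real.one_rpow, mul_one]
  map_mul' x y := by
    rw [hm, Nat.cast_mul, Real.mul_rpow (Nat.cast_nonneg x) (Nat.cast_nonneg y)]
    ring

theorem hasProd_completely {a : ℕ → ℝ} (h1 : a 1 = 1) (hm : ∀ x y, a (x * y) = a x * a y)
    (ha : ∀ n, |a n| ≤ 1) {s : ℝ} (hs : 1 < s) :
    HasProd (fun p : Nat.Primes => (1 - a p * ((p : ℕ) : ℝ) ^ (-s))⁻¹) (dirSum a s) :=
  EulerProduct.eulerProduct_completely_multiplicative_hasProd
    (f := twistHom a h1 hm s (by linarith)) (summable_term ha hs)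

theorem threeInd_mul (x y : ℕ) : threeInd (x * y) = threeInd x * threeInd y := by
  simp only [threeInd, ite_zero_mul_ite_zero, one_mul]
  refine if_congr ?_ rfl rfl
  rw [mul_ne_zero_iff]
  constructor
  · rintro ⟨⟨hx, hy⟩, h⟩
    rw [Nat.primeFactors_mul hx hy] at h
    exact ⟨⟨hx, fun p hp => h p (mem_union_left _ hp)⟩, hy, fun p hp => h p (mem_union_right _ hp)⟩
  · rintro ⟨⟨hx, h⟩, hy, h'⟩
    refine ⟨⟨hx, hy⟩, fun p hp => ?_⟩
    rw [Nat.primeFactors_mul hx hy, mem_union] at hp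
    exact hp.elim (h p) (h' p)

theorem abs_threeInd_le (n : ℕ) : |threeInd n| ≤ 1 := by
  rw [threeInd]
  split_ifs <;> norm_num

theorem threeInd_prime {p : ℕ} (hp : p.Prime) : threeInd p = if p % 4 = 3 then 1 else 0 := by
  simp only [threeInd, hp.primeFactors, mem_singleton, forall_eq, hp.ne_zero, ne_eq,
    not_false_eq_true, true_and]

theorem sqInd_mul {x y : ℕ} (hxy : x.Coprime y) : sqInd (x * y) = sqInd x * sqInd y := by
  simp only [sqInd, ite_zero_mul_ite_zero, one_mul]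
  refine if_congr ?_ rfl rfl
  rw [mul_ne_zero_iff]
  constructor
  · rintro ⟨⟨hx, hy⟩, h⟩
    exact ⟨⟨hx, evenExp_of_mul hx hy hxy h⟩, hy,
      evenExp_of_mul hy hx hxy.symm (by rwa [mul_comm])⟩
  · rintro ⟨⟨hx, h⟩, hy, h'⟩
    refine ⟨⟨hx, hy⟩, fun q hq hq3 => ?_⟩
    rw [Nat.factorization_mul hx hy, Finsupp.add_apply]
    have e : ∀ {z : ℕ}, EvenExp z → Even (z.factorization q) := fun {z} hz => by
      by_cases hz' : q ∈ z.primeFactors
      · exact hz q hz' hq3
      · rw [← Nat.support_factorization, Finsupp.notMem_support_iff] at hz'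
        rw [hz']
        exact Even.zero
    exact (e h).add (e h')

theorem sqInd_prime_pow {p : ℕ} (hp : p.Prime) (e : ℕ) :
    sqInd (p ^ e) = if p % 4 = 3 ∧ ¬ Even e then 0 else 1 := by
  rw [sqInd]
  rcases Nat.eq_zero_or_pos e with rfl | he
  · simp [EvenExp]
  rw [ite_cond_congr (show (p ^ e ≠ 0 ∧ EvenExp (p ^ e)) = (p % 4 = 3 → Even e) from propext (by
    simp [EvenExp, hp.ne_zero, Nat.primeFactors_prime_pow he.ne' hp,
      hp.factorization_pow]))]
  by_cases h3 : p % 4 = 3 <;> by_cases h : Even e <;> simp [h3, h]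

theorem tsum_prime_pow {p : ℕ} (hp : p.Prime) {s : ℝ} (hs : 0 < s) :
    ∑' e : ℕ, sqInd (p ^ e) * ((p ^ e : ℕ) : ℝ) ^ (-s) =
      if p % 4 = 3 then (1 - ((p : ℝ) ^ (-s)) ^ 2)⁻¹ else (1 - (p : ℝ) ^ (-s))⁻¹ := by
  obtain ⟨x, hx⟩ : ∃ x, x = (p : ℝ) ^ (-s) := ⟨_, rfl⟩
  have hx0 : 0 ≤ x := hx ▸ Real.rpow_nonneg (Nat.cast_nonneg p) _
  have hx1 : x < 1 := hx ▸ Real.rpow_lt_one_of_one_lt_of_neg (Nat.one_lt_cast.2 hp.one_lt)
    (neg_lt_zero.2 hs)
  have e : ∀ e : ℕ, ((p ^ e : ℕ) : ℝ) ^ (-s) = x ^ e := fun e => by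
    rw [hx, Nat.cast_pow, ← Real.rpow_natCast_mul (Nat.cast_nonneg p), ← Real.rpow_mul_natCast
      (Nat.cast_nonneg p), mul_comm]
  simp only [sqInd_prime_pow hp, e, ← hx]
  split_ifs with h3
  · have h1 : (Function.support fun e : ℕ =>
        (if p % 4 = 3 ∧ ¬ Even e then (0 : ℝ) else 1) * x ^ e) ⊆ Set.range fun k : ℕ => 2 * k := by
      intro e he
      by_cases hev : Even e
      · obtain ⟨k, rfl⟩ := hev
        exact ⟨k, by dsimp only; omega⟩
      · simp [h3, hev] at he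
    rw [← Function.Injective.tsum_eq (fun a b h => by simpa using h) h1]
    simp only [h3, true_and, pow_mul, even_two_mul, not_true_eq_false, if_false, one_mul]
    exact tsum_geometric_of_lt_one (sq_nonneg x) (by nlinarith)
  · simp only [h3, false_and, if_false, one_mul]
    exact tsum_geometric_of_lt_one hx0 hx1

theorem dirSum_sq {s : ℝ} (hs : 1 < s) : dirSum sqInd s ^ 2 =
    dirSum (fun _ => 1) s * dirSum chi s * dirSum threeInd (2 * s) * (1 - (2 : ℝ) ^ (-s))⁻¹ := by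
  have hz := hasProd_completely (a := fun _ => (1 : ℝ)) rfl (fun _ _ => (one_mul 1).symm)
    (fun _ => abs_one.le) hs
  have hl := hasProd_completely (a := chi) (by simp [chi]) chi_mul abs_chi_le hs
  have h3 := hasProd_completely (a := threeInd) (by simp [threeInd]) threeInd_mul abs_threeInd_le
    (show 1 < 2 * s by linarith)
  have h2 : HasProd (fun p : Nat.Primes => if (p : ℕ) = 2 then
      (1 - (2 : ℝ) ^ (-s))⁻¹ else 1) ((1 - (2 : ℝ) ^ (-s))⁻¹) :=
    (hasProd_ite_eq (⟨2, Nat.prime_two⟩ : Nat.Primes) _).congr_fun fun p =>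
      if_congr ⟨fun h => Subtype.ext h, fun h => congrArg Subtype.val h⟩ rfl rfl
  have hF := EulerProduct.eulerProduct_hasProd (f := fun n : ℕ => sqInd n * (n : ℝ) ^ (-s))
    (by simp [sqInd_one]) (fun {m n} hmn => by
      rw [sqInd_mul hmn, Nat.cast_mul, Real.mul_rpow (Nat.cast_nonneg m) (Nat.cast_nonneg n)]
      ring)
    (summable_term (fun n => by rw [abs_of_nonneg (sqInd_nonneg n)]; exact sqInd_le_one n) hs)
    (by simp [Real.zero_rpow (show -s ≠ 0 by linarith)])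
  rw [pow_two]
  refine (hF.mul hF).unique ((((hz.mul hl).mul h3).mul h2).congr_fun fun p => ?_)
  obtain ⟨p, hp⟩ := p
  obtain ⟨x, hx⟩ : ∃ x, x = (p : ℝ) ^ (-s) := ⟨_, rfl⟩
  have e2 : (p : ℝ) ^ (-(2 * s)) = x ^ 2 := by
    rw [hx, ← Real.rpow_mul_natCast (Nat.cast_nonneg p)]
    congr 1
    push_cast
    ring
  simp only [tsum_prime_pow hp (show 0 < s by linarith), threeInd_prime hp, e2,
    ← hx, one_mul]
  rcases hp.eq_two_or_odd with h | h
  · subst h
    norm_num [chi, ← hx]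
    rw [hx]
    norm_num
  · rcases (show p % 4 = 1 ∨ p % 4 = 3 by omega) with h4 | h4
    · rw [chi, if_pos h4, if_neg (show ¬ p % 4 = 3 by omega),
        if_neg (show ¬ p % 4 = 3 by omega),
        if_neg (show p ≠ 2 by omega)]
      ring
    · rw [chi, if_neg (show ¬ p % 4 = 1 by omega), if_pos h4, if_pos h4, if_pos h4,
        if_neg (show p ≠ 2 by omega)]
      rw [mul_one, one_mul, neg_one_mul, sub_neg_eq_add, ← mul_inv, ← mul_inv, ← mul_inv]
      congr 1
      ring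

theorem chiHarm_two_mul (k : ℕ) :
    chiHarm (2 * k) = ∑ i ∈ range k, (-1 : ℝ) ^ i / (2 * i + 1) := by
  induction k with
  | zero => simp [chiHarm]
  | succ k ih =>
    rw [sum_range_succ, ← ih, chiHarm, show 2 * (k + 1) = 2 * k + 1 + 1 by ring,
      sum_Icc_succ_top (by omega), sum_Icc_succ_top (by omega), ← chiHarm]
    rcases Nat.even_or_odd k with ⟨j, rfl⟩ | ⟨j, rfl⟩
    · rw [chi, if_pos (by omega), chi, if_neg (by omega), if_neg (by omega),
        Even.neg_one_pow ⟨j, rfl⟩]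
      push_cast
      ring
    · rw [chi, if_neg (by omega), if_pos (by omega), chi, if_neg (by omega), if_neg (by omega),
        Odd.neg_one_pow ⟨j, rfl⟩]
      push_cast
      ring

theorem tendsto_chiHarm : Tendsto chiHarm atTop (𝓝 (Real.pi / 4)) := by
  obtain ⟨l, -, hl⟩ := exists_chiHarm_limit
  have h : Tendsto chiHarm atTop (𝓝 l) := tendsto_iff_norm_sub_tendsto_zero.2
    (squeeze_zero (fun _ => norm_nonneg _) (fun N => hl N)
      (by exact_mod_cast tendsto_one_div_add_atTop_nhds_zero_nat (𝕜 := ℝ)))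
  have he := (h.comp (tendsto_id.const_mul_atTop' (show 0 < 2 by norm_num))).congr chiHarm_two_mul
  rwa [tendsto_nhds_unique he Real.tendsto_sum_pi_div_four] at h

theorem tendsto_dirSum_chi :
    Tendsto (fun δ : ℝ => dirSum chi (1 + δ)) (𝓝[>] 0) (𝓝 (Real.pi / 4)) := by
  have htail : ∀ δ : ℝ, 0 ≤ δ → ∀ N M : ℕ, N ≤ M →
      |∑ n ∈ Icc 1 M, chi n * (n : ℝ) ^ (-(1 + δ)) - ∑ n ∈ Icc 1 N, chi n * (n : ℝ) ^ (-(1 + δ))| ≤
        1 / (N + 1 : ℕ) := by
    intro δ hδ N M hNM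
    rw [← Finset.Ico_add_one_right_eq_Icc, ← Finset.Ico_add_one_right_eq_Icc,
      ← sum_Ico_consecutive _ (show 1 ≤ N + 1 by omega) (show N + 1 ≤ M + 1 by omega),
      add_sub_cancel_left]
    refine (abs_sum_chi_mul_le (a := fun n : ℕ => (n : ℝ) ^ (-(1 + δ))) (by omega) (fun n hn =>
      Real.rpow_le_rpow_of_nonpos (Nat.cast_pos.2 (by omega)) (Nat.cast_le.2 (Nat.le_succ n))
        (by linarith)) (by positivity)).trans ?_
    rw [one_div, ← Real.rpow_neg_one]
    exact Real.rpow_le_rpow_of_exponent_le (Nat.one_le_cast.2 (Nat.le_add_left 1 N)) (by linarith)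
  refine Metric.tendsto_nhds.2 fun η hη => ?_
  obtain ⟨N, hN⟩ := exists_nat_gt (3 / η)
  have hN' : 1 / ((N + 1 : ℕ) : ℝ) < η / 3 := by
    rw [div_lt_iff₀ hη] at hN
    rw [div_lt_iff₀ (Nat.cast_pos.2 (Nat.succ_pos N))]
    push_cast
    linarith
  have hcont : Tendsto (fun δ : ℝ => ∑ n ∈ Icc 1 N, chi n * (n : ℝ) ^ (-(1 + δ))) (𝓝[>] 0)
      (𝓝 (chiHarm N)) := by
    refine (tendsto_finsetSum _ fun n hn => ?_).mono_left nhdsWithin_le_nhds
    have := (((Real.continuous_const_rpow (a := (n : ℝ))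
      (Nat.cast_ne_zero.2 (by have := (mem_Icc.1 hn).1; omega))).comp
        ((continuous_const (y := (1 : ℝ))).add continuous_id).neg).const_mul (chi n)).tendsto 0
    simpa [Real.rpow_neg_one, div_eq_mul_inv] using this
  filter_upwards [self_mem_nhdsWithin, Metric.tendsto_nhds.1 hcont (η / 3) (by linarith)]
    with δ hδ h1
  have h2 : |dirSum chi (1 + δ) - ∑ n ∈ Icc 1 N, chi n * (n : ℝ) ^ (-(1 + δ))| ≤
      1 / (N + 1 : ℕ) := le_of_tendsto
    (((tendsto_partial_dirSum abs_chi_le (show 1 < 1 + δ by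
      linarith [Set.mem_Ioi.1 hδ])).sub_const _).abs)
    ((eventually_ge_atTop N).mono fun M hM => htail δ (le_of_lt hδ) N M hM)
  have h3 : |Real.pi / 4 - chiHarm N| ≤ 1 / (N + 1 : ℕ) := le_of_tendsto
    ((tendsto_chiHarm.sub_const _).abs)
    ((eventually_ge_atTop N).mono fun M hM => abs_chiHarm_sub_le hM)
  rw [Real.dist_eq] at h1 ⊢
  obtain ⟨a1, a2⟩ := abs_lt.1 h1
  obtain ⟨b1, b2⟩ := abs_le.1 h2
  obtain ⟨c1, c2⟩ := abs_le.1 h3
  rw [abs_lt]
  constructor <;> linarith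

/-- `∏_(p ≡ 3 (4)) (1 - p^(-2))⁻¹`. -/
def threeProd : ℝ := ∏' p : Nat.Primes, if (p : ℕ) % 4 = 3 then (1 - 1 / ((p : ℕ) : ℝ) ^ 2)⁻¹ else 1

theorem dirSum_threeInd_two : dirSum threeInd 2 = threeProd := by
  have h := hasProd_completely (a := threeInd) (by simp [threeInd]) threeInd_mul abs_threeInd_le
    (show (1 : ℝ) < 2 by norm_num)
  rw [threeProd, ← h.tprod_eq]
  refine tprod_congr fun p => ?_
  rw [threeInd_prime p.prop]
  split_ifs
  · rw [one_mul, Real.rpow_neg (Nat.cast_nonneg _), Real.rpow_two, one_div]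
  · simp

theorem tendsto_dirSum_threeInd :
    Tendsto (fun δ : ℝ => dirSum threeInd (2 * (1 + δ))) (𝓝[>] 0) (𝓝 threeProd) := by
  rw [← dirSum_threeInd_two]
  refine tendsto_tsum_of_dominated_convergence (bound := fun n : ℕ => (n : ℝ) ^ (-(2 : ℝ)))
    (Real.summable_nat_rpow.2 (by norm_num)) (fun n => ?_) ?_
  · rcases Nat.eq_zero_or_pos n with rfl | hn
    · simp [threeInd]
    have := ((((Real.continuous_const_rpow (a := (n : ℝ)) (Nat.cast_ne_zero.2 hn.ne')).comp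
      (((continuous_const (y := (1 : ℝ))).add continuous_id).const_mul 2).neg).const_mul
        (threeInd n)).tendsto 0).mono_left (nhdsWithin_le_nhds (s := Set.Ioi 0))
    simpa using this
  · filter_upwards [self_mem_nhdsWithin] with δ hδ n
    rw [Real.norm_eq_abs, abs_mul, abs_of_nonneg (by positivity : 0 ≤ (n : ℝ) ^ (-(2 * (1 + δ))))]
    refine (mul_le_of_le_one_left (by positivity) (abs_threeInd_le n)).trans ?_
    rcases Nat.eq_zero_or_pos n with rfl | hn
    · rw [Nat.cast_zero, Real.zero_rpow (by linarith [Set.mem_Ioi.1 hδ]),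
        Real.zero_rpow (by norm_num)]
    · exact Real.rpow_le_rpow_of_exponent_le (Nat.one_le_cast.2 hn)
        (by linarith [Set.mem_Ioi.1 hδ])

/-- **The constant of Landau and Ramanujan.** -/
theorem count_tendsto_threeProd :
    Tendsto (fun N : ℕ => (∑ n ∈ Icc 1 N, sqInd n) * Real.sqrt (Real.log N) / N) atTop
      (𝓝 (Real.sqrt (threeProd / 2))) := by
  obtain ⟨C, hC, hS, hL⟩ := exists_count_asymptotic
  suffices h : C ^ 2 = threeProd / 2 by
    rwa [← h, Real.sqrt_sq hC.le]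
  have hpos : ∀ᶠ δ : ℝ in 𝓝[>] (0 : ℝ), 0 < δ := eventually_mem_nhdsWithin
  have h1 := (tendsto_dirSum_sqrt hL).pow 2
  have hshift : Tendsto (fun δ : ℝ => 1 + δ) (𝓝[>] 0) (𝓝[>] 1) := by
    refine tendsto_nhdsWithin_iff.2 ⟨?_, hpos.mono fun δ hδ => by
      rw [Set.mem_Ioi]; linarith⟩
    simpa using ((continuous_const_add (1 : ℝ)).tendsto 0).mono_left
      (nhdsWithin_le_nhds (s := Set.Ioi 0))
  have hz : Tendsto (fun δ : ℝ => δ * dirSum (fun _ => 1) (1 + δ)) (𝓝[>] 0) (𝓝 1) := by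
    refine (tendsto_sub_mul_tsum_nat_rpow.comp hshift).congr fun δ => ?_
    simp only [Function.comp_apply, dirSum, one_mul, add_sub_cancel_left]
    congr 1
    exact tsum_congr fun n => by rw [Real.rpow_neg (Nat.cast_nonneg n), one_div]
  have h2 : Tendsto (fun δ : ℝ => (1 - (2 : ℝ) ^ (-(1 + δ)))⁻¹) (𝓝[>] 0) (𝓝 2) := by
    have h0 := ((Real.continuous_const_rpow (two_ne_zero (α := ℝ))).tendsto (-1)).comp
      ((hshift.mono_right nhdsWithin_le_nhds).neg)
    have h := ((tendsto_const_nhds (x := (1 : ℝ))).sub h0).inv₀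
      (by rw [Real.rpow_neg_one]; norm_num)
    rw [Real.rpow_neg_one, show ((1 : ℝ) - 2⁻¹)⁻¹ = 2 by norm_num] at h
    exact h
  have h3 := ((hz.mul tendsto_dirSum_chi).mul tendsto_dirSum_threeInd).mul h2
  have heq : (fun δ : ℝ => (dirSum sqInd (1 + δ) * Real.sqrt δ) ^ 2) =ᶠ[𝓝[>] 0]
      fun δ => δ * dirSum (fun _ => 1) (1 + δ) * dirSum chi (1 + δ) *
        dirSum threeInd (2 * (1 + δ)) * (1 - (2 : ℝ) ^ (-(1 + δ)))⁻¹ := by
    filter_upwards [hpos] with δ hδ
    rw [mul_pow, Real.sq_sqrt hδ.le, dirSum_sq (by linarith)]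
    ring
  have h := tendsto_nhds_unique (h1.congr' heq) h3
  rw [mul_pow, mul_pow, div_pow, Real.sq_sqrt Real.pi_pos.le] at h
  nlinarith [Real.pi_pos]

end FA.LandauSquares
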