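import Mathlib.NumberTheory.ArithmeticFunction.VonMangoldt
import Mathlib.NumberTheory.SumTwoSquares

/-!
# The indicator of the sums of two squares and its logarithmic derivative

`f log = W * f`, where `W (p ^ k)` is `log p` unless `p ≡ 3 (mod 4)`, and then `2 log p` for even
`k` and `0` for odd `k`.
-/

set_option autoImplicit false

noncomputable section

namespace FA.LandauSquares

open Finset
open scoped ArithmeticFunction.vonMangoldt

/-- Every prime `≡ 3 (mod 4)` divides `n` to an even power. -/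
def EvenExp (n : ℕ) : Prop := ∀ q ∈ n.primeFactors, q % 4 = 3 → Even (n.factorization q)

instance (n : ℕ) : Decidable (EvenExp n) :=
  inferInstanceAs (Decidable (∀ q ∈ n.primeFactors, q % 4 = 3 → Even (n.factorization q)))

theorem evenExp_iff_exists {n : ℕ} : EvenExp n ↔ ∃ a b : ℕ, n = a ^ 2 + b ^ 2 := by
  rw [Nat.eq_sq_add_sq_iff]
  refine forall₂_congr fun q hq => ?_
  rw [Nat.factorization_def n (Nat.prime_of_mem_primeFactors hq)]

/-- The indicator of the positive sums of two squares. -/
def sqInd (n : ℕ) : ℝ := if n ≠ 0 ∧ EvenExp n then 1 else 0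

theorem sqInd_nonneg (n : ℕ) : 0 ≤ sqInd n := by
  rw [sqInd]
  split_ifs <;> norm_num

theorem sqInd_le_one (n : ℕ) : sqInd n ≤ 1 := by
  rw [sqInd]
  split_ifs <;> norm_num

theorem sqInd_one : sqInd 1 = 1 := by simp [sqInd, EvenExp]

/-- The coefficient of the logarithmic derivative. -/
def weight (d : ℕ) : ℝ :=
  Λ d * if d.minFac % 4 = 3 then (if Even (d.factorization d.minFac) then 2 else 0) else 1

theorem weight_nonneg (d : ℕ) : 0 ≤ weight d :=
  mul_nonneg ArithmeticFunction.vonMangoldt_nonneg (by split_ifs <;> norm_num)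

theorem weight_prime_pow {p k : ℕ} (hp : p.Prime) (hk : k ≠ 0) :
    weight (p ^ k) = Real.log p * if p % 4 = 3 then (if Even k then 2 else 0) else 1 := by
  rw [weight, ArithmeticFunction.vonMangoldt_apply_pow hk,
    ArithmeticFunction.vonMangoldt_apply_prime hp, hp.pow_minFac hk,
    hp.factorization_pow, Finsupp.single_eq_same]

theorem evenExp_mul_iff {d m : ℕ} (hm : m ≠ 0) (hd : weight d ≠ 0) :
    EvenExp (d * m) ↔ EvenExp m := by
  have hpp : IsPrimePow d := ArithmeticFunction.vonMangoldt_ne_zero_iff.1 (left_ne_zero_of_mul hd)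
  obtain ⟨p, k, hp, hk, rfl⟩ := hpp
  have hp' : p.Prime := Nat.prime_iff.2 hp
  rw [weight_prime_pow hp' hk.ne'] at hd
  have hpk : p ^ k ≠ 0 := pow_ne_zero _ hp'.ne_zero
  have hfac : ∀ q : ℕ, q % 4 = 3 →
      (Even ((p ^ k * m).factorization q) ↔ Even (m.factorization q)) := by
    intro q hq
    rw [Nat.factorization_mul hpk hm, Finsupp.add_apply, hp'.factorization_pow]
    rcases eq_or_ne q p with rfl | hne
    · rw [Finsupp.single_eq_same, Nat.even_add]
      have : Even k := by
        by_contra hodd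
        rw [if_pos hq, if_neg hodd, mul_zero] at hd
        exact hd rfl
      simp [this]
    · rw [Finsupp.single_eq_of_ne hne, zero_add]
  constructor
  · intro h q hq hq3
    rw [← hfac q hq3]
    refine h q ?_ hq3
    rw [Nat.primeFactors_mul hpk hm]
    exact mem_union_right _ hq
  · intro h q _ hq3
    rw [hfac q hq3]
    by_cases hqm : q ∈ m.primeFactors
    · exact h q hqm hq3
    · rw [← Nat.support_factorization, Finsupp.notMem_support_iff] at hqm
      rw [hqm]
      exact Even.zero

theorem evenExp_of_mul {a b : ℕ} (ha : a ≠ 0) (hb : b ≠ 0) (hab : a.Coprime b)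
    (h : EvenExp (a * b)) : EvenExp a := by
  intro q hq hq3
  have h1 := h q (by rw [Nat.primeFactors_mul ha hb]; exact mem_union_left _ hq) hq3
  rw [Nat.factorization_mul_of_coprime hab, Finsupp.add_apply] at h1
  have hqb : b.factorization q = 0 := Finsupp.notMem_support_iff.1 fun hb' => by
    rw [Nat.support_factorization] at hb'
    exact disjoint_left.1 hab.disjoint_primeFactors hq hb'
  rwa [hqb, add_zero] at h1

theorem sum_weight {n : ℕ} : n ≠ 0 → EvenExp n → ∑ d ∈ n.divisors, weight d = Real.log n := by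
  refine Nat.recOnPrimeCoprime ?_ ?_ ?_ n
  · simp
  · intro p k hp _ hgood
    rw [Nat.sum_divisors_prime_pow hp, sum_range_succ',
      show weight (p ^ 0) = 0 by simp [weight], add_zero, Nat.cast_pow, Real.log_pow,
      sum_congr rfl fun i _ => weight_prime_pow hp (Nat.succ_ne_zero i)]
    split_ifs with h3
    · have hk : Even k := by
        rcases Nat.eq_zero_or_pos k with rfl | hk
        · exact Even.zero
        have := hgood p
          (by rw [Nat.primeFactors_prime_pow hk.ne' hp]; exact mem_singleton_self p) h3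
        rwa [hp.factorization_pow, Finsupp.single_eq_same] at this
      obtain ⟨j, rfl⟩ := hk
      induction j with
      | zero => simp
      | succ j ih =>
        rw [show j + 1 + (j + 1) = j + j + 1 + 1 by omega, sum_range_succ, sum_range_succ,
          ih (pow_ne_zero _ hp.ne_zero) ?_]
        · rw [if_pos (show Even (j + j + 1 + 1) by exact ⟨j + 1, by omega⟩),
            if_neg (show ¬ Even (j + j + 1) by simp [← two_mul])]
          push_cast
          ring
        · intro q hq _
          rcases Nat.eq_zero_or_pos (j + j) with e | e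
          · rw [e] at hq
            simp at hq
          rw [Nat.primeFactors_prime_pow e.ne' hp, mem_singleton] at hq
          subst hq
          rw [hp.factorization_pow, Finsupp.single_eq_same]
          exact ⟨j, rfl⟩
    · simp [mul_comm]
  · intro a b ha hb hab iha ihb _ hgood
    have ha0 : a ≠ 0 := by omega
    have hb0 : b ≠ 0 := by omega
    have e : ∀ m : ℕ, ∑ d ∈ m.divisors, weight d =
        ∑ d ∈ m.divisors.filter IsPrimePow, weight d := fun m => by
      refine (sum_filter_of_ne fun d _ hd => ?_).symm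
      exact ArithmeticFunction.vonMangoldt_ne_zero_iff.1 (left_ne_zero_of_mul hd)
    rw [e, Nat.mul_divisors_filter_prime_pow hab, filter_union,
      sum_union (Nat.disjoint_divisors_filter_isPrimePow hab), ← e, ← e,
      iha ha0 (evenExp_of_mul ha0 hb0 hab hgood),
      ihb hb0 (evenExp_of_mul hb0 ha0 hab.symm (by rwa [mul_comm])), Nat.cast_mul,
      Real.log_mul (Nat.cast_ne_zero.2 ha0) (Nat.cast_ne_zero.2 hb0)]

/-- `f log = W * f`. -/
theorem sum_weight_mul_sqInd {n : ℕ} (hn : n ≠ 0) :
    ∑ d ∈ n.divisors, weight d * sqInd (n / d) = sqInd n * Real.log n := by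
  have e : ∀ d ∈ n.divisors, weight d * sqInd (n / d) = weight d * sqInd n := by
    intro d hd
    rcases eq_or_ne (weight d) 0 with h | h
    · rw [h, zero_mul, zero_mul]
    obtain ⟨m, hm⟩ := (Nat.mem_divisors.1 hd).1
    have hd0 : 0 < d := Nat.pos_of_mem_divisors hd
    have hm0 : m ≠ 0 := fun e => hn (by rw [hm, e, mul_zero])
    congr 1
    rw [hm, Nat.mul_div_cancel_left m hd0, sqInd, sqInd]
    exact if_congr (by simp [hm0, hd0.ne', evenExp_mul_iff hm0 h]) rfl rfl
  rw [sum_congr rfl e, ← sum_mul, sqInd]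
  split_ifs with h
  · rw [mul_one, one_mul, sum_weight hn h.2]
  · rw [mul_zero, zero_mul]

/-- A sum over `d m ≤ N`. -/
theorem sum_divisors_swap (N : ℕ) (F : ℕ → ℕ → ℝ) :
    ∑ n ∈ Icc 1 N, ∑ d ∈ n.divisors, F d (n / d) =
      ∑ m ∈ Icc 1 N, ∑ d ∈ Icc 1 (N / m), F d m := by
  simp only [← Nat.sum_divisorsAntidiagonal fun d m => F d m]
  rw [← sum_biUnion fun a _ b _ hab => disjoint_left.2 fun z hza hzb =>
    hab ((Nat.mem_divisorsAntidiagonal.1 hza).1.symm.trans (Nat.mem_divisorsAntidiagonal.1 hzb).1),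
    sum_sigma']
  refine sum_nbij' (fun z => ⟨z.2, z.1⟩) (fun y => (y.2, y.1)) ?_ ?_ ?_ ?_ ?_
  · intro z hz
    rw [mem_biUnion] at hz
    obtain ⟨n, hn, hz⟩ := hz
    rw [Nat.mem_divisorsAntidiagonal] at hz
    rw [mem_Icc] at hn
    have h1 : 0 < z.1 * z.2 := by omega
    have hm : 0 < z.2 := Nat.pos_of_mul_pos_left h1
    have hd : 0 < z.1 := Nat.pos_of_mul_pos_right h1
    have := Nat.le_mul_of_pos_left z.2 hd
    exact mem_sigma.2 ⟨mem_Icc.2 ⟨hm, show z.2 ≤ N by omega⟩,
      mem_Icc.2 ⟨hd, show z.1 ≤ N / z.2 from (Nat.le_div_iff_mul_le hm).2 (by omega)⟩⟩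
  · intro y hy
    rw [mem_sigma, mem_Icc, mem_Icc, Nat.le_div_iff_mul_le (by omega)] at hy
    have h1 : 0 < y.2 * y.1 := Nat.mul_pos hy.2.1 hy.1.1
    exact mem_biUnion.2 ⟨y.2 * y.1, mem_Icc.2 ⟨h1, hy.2.2⟩,
      Nat.mem_divisorsAntidiagonal.2 ⟨rfl, h1.ne'⟩⟩
  · exact fun _ _ => rfl
  · exact fun _ _ => rfl
  · exact fun _ _ => rfl

end FA.LandauSquares
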