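import Fermat.Agent.LandauSquares.Mertens

/-!
# The logarithmic mean

With `L(N) = ∑ f(n) / n` and `T(N) = ∑ f(n) log n / n` Mertens' theorem gives
`T = L log N / 3 + O (L)`; so `I = L log N - T`, whose increments are `L` times those of `log N`, is
asymptotic to a multiple of `(log N) ^ (3/2)`.
-/

set_option autoImplicit false

noncomputable section

namespace FA.LandauSquares

open Finset Filter
open scoped Topology

/-- `∑_(n ≤ N) f n / n`. -/
def logMean (N : ℕ) : ℝ := ∑ n ∈ Icc 1 N, sqInd n / n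

/-- `L log N - ∑ f n log n / n`. -/
def primMean (N : ℕ) : ℝ :=
  logMean N * Real.log N - ∑ n ∈ Icc 1 N, sqInd n * Real.log n / n

theorem one_le_logMean {N : ℕ} (hN : 1 ≤ N) : 1 ≤ logMean N := by
  have h := single_le_sum (f := fun n => sqInd n / (n : ℝ))
    (fun n _ => div_nonneg (sqInd_nonneg n) (Nat.cast_nonneg n)) (mem_Icc.2 ⟨le_rfl, hN⟩)
  simpa [logMean, sqInd_one] using h

theorem primMean_succ_sub {N : ℕ} :
    primMean (N + 1) - primMean N = logMean N * (Real.log (N + 1 : ℕ) - Real.log N) := by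
  rw [primMean, primMean, logMean, logMean, sum_Icc_succ_top (by omega),
    sum_Icc_succ_top (by omega)]
  ring

theorem exists_abs_primMean_sub_le : ∃ C : ℝ, 0 ≤ C ∧ ∀ N : ℕ, 1 ≤ N →
    |primMean N - 2 / 3 * (logMean N * Real.log N)| ≤ C * logMean N := by
  obtain ⟨C, hC⟩ := exists_abs_sum_weight_div_sub_le
  refine ⟨2 / 3 * (C + Real.log 2), ?_, fun N hN => ?_⟩
  · have := (abs_nonneg _).trans (hC 1 le_rfl)
    positivity
  have e : ∑ n ∈ Icc 1 N, sqInd n * Real.log n / n =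
      ∑ m ∈ Icc 1 N, sqInd m / m * ∑ d ∈ Icc 1 (N / m), weight d / d := by
    simp only [mul_sum]
    rw [← sum_divisors_swap N fun d m => sqInd m / m * (weight d / d)]
    refine sum_congr rfl fun n hn => ?_
    rw [← sum_weight_mul_sqInd (show n ≠ 0 by have := (mem_Icc.1 hn).1; omega), sum_div]
    refine sum_congr rfl fun d hd => ?_
    obtain ⟨m, rfl⟩ := (Nat.mem_divisors.1 hd).1
    rw [Nat.mul_div_cancel_left m (Nat.pos_of_mem_divisors hd), Nat.cast_mul]
    ring
  have hterm : ∀ m ∈ Icc 1 N, |sqInd m / m * ∑ d ∈ Icc 1 (N / m), weight d / d -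
      (sqInd m / m * Real.log N - sqInd m * Real.log m / m) / 2| ≤
        sqInd m / m * (C + Real.log 2) := by
    intro m hm
    rw [mem_Icc] at hm
    have hq : 1 ≤ N / m := Nat.div_pos hm.2 hm.1
    have h1 := abs_le.1 (hC (N / m) hq)
    have h2 : |Real.log (N / m : ℕ) - (Real.log N - Real.log m)| ≤ Real.log 2 := by
      have hm0 : (0 : ℝ) < m := Nat.cast_pos.2 hm.1
      have hN0 : (0 : ℝ) < N := Nat.cast_pos.2 hN
      rw [← Real.log_div hN0.ne' hm0.ne']
      have hlo : ((N / m : ℕ) : ℝ) ≤ N / m := Nat.cast_div_le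
      have hhi : (N : ℝ) / m ≤ 2 * ((N / m : ℕ) : ℝ) := by
        rw [div_le_iff₀ hm0]
        have : N ≤ 2 * (N / m) * m := by
          have := Nat.lt_div_mul_add (a := N) hm.1
          have := Nat.le_mul_of_pos_left m hq
          nlinarith
        exact_mod_cast this
      have h3 := Real.log_le_log (Nat.cast_pos.2 hq) hlo
      have h4 := Real.log_le_log (div_pos hN0 hm0) hhi
      rw [Real.log_mul two_ne_zero (Nat.cast_pos.2 hq : (0 : ℝ) < _).ne'] at h4
      rw [abs_le]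
      constructor <;> linarith [Real.log_pos one_lt_two]
    obtain ⟨h5, h6⟩ := abs_le.1 h2
    rw [show sqInd m / m * ∑ d ∈ Icc 1 (N / m), weight d / d -
        (sqInd m / m * Real.log N - sqInd m * Real.log m / m) / 2 =
      sqInd m / m * (∑ d ∈ Icc 1 (N / m), weight d / d - (Real.log N - Real.log m) / 2) by ring,
      abs_mul, abs_of_nonneg (div_nonneg (sqInd_nonneg m) (Nat.cast_nonneg m))]
    refine mul_le_mul_of_nonneg_left ?_ (div_nonneg (sqInd_nonneg m) (Nat.cast_nonneg m))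
    rw [abs_le]
    constructor <;> linarith [Real.log_pos one_lt_two]
  have h := (abs_sum_le_sum_abs _ _).trans (sum_le_sum hterm)
  rw [sum_sub_distrib, ← sum_div, sum_sub_distrib, ← sum_mul, ← sum_mul, ← e, ← logMean] at h
  rw [primMean]
  obtain ⟨h7, h8⟩ := abs_le.1 h
  rw [abs_le]
  constructor <;> linarith

/-- `log I - (3/2) log log N`. -/
def driftMean (N : ℕ) : ℝ := Real.log (primMean N) - 3 / 2 * Real.log (Real.log N)

theorem exists_drift_bound : ∃ (K : ℝ) (N₀ : ℕ), 0 ≤ K ∧ 3 ≤ N₀ ∧ ∀ N : ℕ, N₀ ≤ N →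
    |driftMean (N + 1) - driftMean N| ≤ K * ((Real.log N)⁻¹ - (Real.log (N + 1 : ℕ))⁻¹) ∧
      0 < primMean N ∧ |logMean N - 3 / 2 * (primMean N / Real.log N)| ≤
        K * (primMean N / Real.log N ^ 2) := by
  obtain ⟨C, hC0, hC⟩ := exists_abs_primMean_sub_le
  obtain ⟨N₀, hN₀⟩ := eventually_atTop.1 ((Real.tendsto_log_atTop.comp
    tendsto_natCast_atTop_atTop).eventually_ge_atTop (6 * C + 1))
  refine ⟨2 * (3 * C + 6), max N₀ 3, by positivity, le_max_right _ _, fun N hN => ?_⟩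
  rw [max_le_iff] at hN
  have hlog : 6 * C + 1 ≤ Real.log N := hN₀ N hN.1
  obtain ⟨ℓ, hℓ⟩ : ∃ ℓ, ℓ = Real.log N := ⟨_, rfl⟩
  obtain ⟨δ, hδ⟩ : ∃ δ, δ = Real.log (N + 1 : ℕ) - ℓ := ⟨_, rfl⟩
  have hℓ1 : 1 ≤ ℓ := by linarith
  have hL := one_le_logMean (show 1 ≤ N by omega)
  obtain ⟨hI1, hI2⟩ := abs_le.1 (hC N (by omega))
  rw [← hℓ] at hI1 hI2 hlog ⊢
  have hIL : ℓ * logMean N / 2 ≤ primMean N := by
    nlinarith [mul_le_mul_of_nonneg_left hlog (show 0 ≤ logMean N by linarith)]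
  have hI0 : 0 < primMean N := by nlinarith
  have hLI : |logMean N - 3 / 2 * (primMean N / ℓ)| ≤ 3 * C * (primMean N / ℓ ^ 2) := by
    have e : logMean N - 3 / 2 * (primMean N / ℓ) =
        -(3 / 2) * ((primMean N - 2 / 3 * (logMean N * ℓ)) / ℓ) := by
      field_simp
      ring
    rw [e, abs_mul, abs_neg, abs_of_pos (show (0 : ℝ) < 3 / 2 by norm_num), abs_div,
      abs_of_pos (show 0 < ℓ by linarith), pow_two, ← div_div, mul_div_assoc', mul_div_assoc']
    refine div_le_div_of_nonneg_right ?_ (by linarith)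
    rw [mul_div_assoc', le_div_iff₀ (show 0 < ℓ by linarith)]
    have h := abs_le.2 ⟨hI1, hI2⟩
    nlinarith [mul_le_mul_of_nonneg_right h (show 0 ≤ ℓ by linarith),
      mul_le_mul_of_nonneg_left hIL hC0]
  refine ⟨?_, hI0, hLI.trans (mul_le_mul_of_nonneg_right (by linarith) (by positivity))⟩
  have hδ0 : 0 ≤ δ := by
    rw [hδ, hℓ, sub_nonneg]
    exact Real.log_le_log (Nat.cast_pos.2 (by omega)) (Nat.cast_le.2 (Nat.le_succ N))
  have hδ1 : δ ≤ 1 := by
    have h := Real.log_le_sub_one_of_pos (show (0 : ℝ) < ((N + 1 : ℕ) : ℝ) / N from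
      div_pos (Nat.cast_pos.2 (by omega)) (Nat.cast_pos.2 (by omega)))
    rw [Real.log_div (Nat.cast_ne_zero.2 (by omega)) (Nat.cast_ne_zero.2 (by omega)), ← hℓ,
      ← hδ] at h
    refine h.trans ?_
    rw [sub_le_iff_le_add, div_le_iff₀ (Nat.cast_pos.2 (by omega))]
    have : (3 : ℝ) ≤ N := Nat.ofNat_le_cast.2 hN.2
    push_cast
    linarith
  have hstep : primMean (N + 1) = primMean N + logMean N * δ := by
    linarith [hδ ▸ hℓ ▸ primMean_succ_sub (N := N)]
  have hlb : ∀ x : ℝ, 0 ≤ x → x - x ^ 2 ≤ Real.log (1 + x) ∧ Real.log (1 + x) ≤ x := fun x hx => by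
    refine ⟨le_trans ?_ (Real.one_sub_inv_le_log_of_pos (by linarith)),
      by linarith [Real.log_le_sub_one_of_pos (show 0 < 1 + x by linarith)]⟩
    rw [show 1 - (1 + x)⁻¹ = x / (1 + x) by field_simp; ring, le_div_iff₀ (by linarith)]
    nlinarith [pow_nonneg hx 3]
  obtain ⟨x, hx⟩ : ∃ x, x = logMean N * δ / primMean N := ⟨_, rfl⟩
  obtain ⟨y, hy⟩ : ∃ y, y = δ / ℓ := ⟨_, rfl⟩
  have hx0 : 0 ≤ x := hx ▸ div_nonneg (mul_nonneg (by linarith) hδ0) hI0.le
  have hy0 : 0 ≤ y := hy ▸ div_nonneg hδ0 (by linarith)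
  have e1 : driftMean (N + 1) - driftMean N = Real.log (1 + x) - 3 / 2 * Real.log (1 + y) := by
    rw [driftMean, driftMean, hstep, show primMean N + logMean N * δ = primMean N * (1 + x) by
      rw [hx]; field_simp, Real.log_mul hI0.ne' (by linarith),
      show Real.log (N + 1 : ℕ) = ℓ * (1 + y) by
        rw [hy, mul_add, mul_one, mul_div_cancel₀ _ (show ℓ ≠ 0 by linarith), hδ]; ring,
      Real.log_mul (show ℓ ≠ 0 by linarith) (by linarith), ← hℓ]
    ring
  have hxy : |x - 3 / 2 * y| ≤ 3 * C * (δ / ℓ ^ 2) := by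
    have e : x - 3 / 2 * y = δ / primMean N * (logMean N - 3 / 2 * (primMean N / ℓ)) := by
      rw [hx, hy]
      field_simp
    rw [e, abs_mul, abs_of_nonneg (div_nonneg hδ0 hI0.le)]
    refine (mul_le_mul_of_nonneg_left hLI (div_nonneg hδ0 hI0.le)).trans (le_of_eq ?_)
    field_simp
  have hxb : x ≤ 2 * y := by
    rw [hx, hy, mul_div_assoc', div_le_div_iff₀ hI0 (by linarith)]
    nlinarith [mul_le_mul_of_nonneg_left hIL hδ0]
  have hsq : x ^ 2 ≤ 4 * (δ / ℓ ^ 2) ∧ y ^ 2 ≤ δ / ℓ ^ 2 := by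
    have h1 : y ^ 2 ≤ δ / ℓ ^ 2 := by
      rw [hy, div_pow, div_le_div_iff_of_pos_right (by positivity)]
      nlinarith
    exact ⟨by nlinarith, h1⟩
  have hdiff : δ / ℓ ^ 2 ≤ 2 * (ℓ⁻¹ - (Real.log (N + 1 : ℕ))⁻¹) := by
    rw [show Real.log (N + 1 : ℕ) = ℓ + δ by linarith, inv_sub_inv (by linarith) (by linarith),
      add_sub_cancel_left, mul_div_assoc', div_le_div_iff₀ (by positivity) (by positivity)]
    nlinarith [mul_le_mul_of_nonneg_left (show δ ≤ ℓ by linarith)
      (mul_nonneg hδ0 (show 0 ≤ ℓ by linarith))]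
  rw [e1]
  obtain ⟨a1, a2⟩ := hlb x hx0
  obtain ⟨b1, b2⟩ := hlb y hy0
  obtain ⟨c1, c2⟩ := abs_le.1 hxy
  have hδℓ : 0 ≤ δ / ℓ ^ 2 := div_nonneg hδ0 (sq_nonneg ℓ)
  rw [abs_le]
  constructor <;> nlinarith [hsq.1, hsq.2, mul_le_mul_of_nonneg_left hdiff
    (show 0 ≤ 3 * C + 6 by linarith)]

/-- **The logarithmic mean is asymptotic to a multiple of `√(log N)`.** -/
theorem exists_logMean_asymptotic :
    ∃ c : ℝ, 0 < c ∧
      Tendsto (fun N : ℕ => logMean N / Real.sqrt (Real.log N)) atTop (𝓝 c) := by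
  obtain ⟨K, N₀, hK, hN₀3, h⟩ := exists_drift_bound
  obtain ⟨r, hr⟩ : ∃ r : ℕ → ℝ, r = fun n => K * (Real.log (n + N₀ : ℕ))⁻¹ := ⟨_, rfl⟩
  have hrpos : ∀ n, 0 ≤ r n := fun n =>
    hr ▸ mul_nonneg hK (inv_nonneg.2 (Real.log_natCast_nonneg _))
  have hstep : ∀ n, |driftMean (n + N₀ + 1) - driftMean (n + N₀)| ≤ r n - r (n + 1) := fun n => by
    refine (h (n + N₀) (by omega)).1.trans (le_of_eq ?_)
    rw [hr]
    dsimp only
    rw [mul_sub, show n + 1 + N₀ = n + N₀ + 1 by omega]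
  have hmono : Monotone fun n => driftMean (n + N₀) - r n := monotone_nat_of_le_succ fun n => by
    have := abs_le.1 (hstep n)
    rw [show n + 1 + N₀ = n + N₀ + 1 by omega]
    linarith
  have hanti : ∀ n, driftMean (n + N₀) + r n ≤ driftMean (0 + N₀) + r 0 := fun n => by
    induction n with
    | zero => rfl
    | succ n ih =>
      have := abs_le.1 (hstep n)
      rw [show n + 1 + N₀ = n + N₀ + 1 by omega]
      linarith
  have hU := tendsto_atTop_ciSup hmono ⟨driftMean (0 + N₀) + r 0, by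
    rintro _ ⟨n, rfl⟩
    dsimp only
    linarith [hanti n, hrpos n]⟩
  obtain ⟨J, hJ⟩ : ∃ J, Tendsto (fun n => driftMean (n + N₀) - r n) atTop (𝓝 J) := ⟨_, hU⟩
  have hlogT : Tendsto (fun N : ℕ => Real.log N) atTop atTop :=
    Real.tendsto_log_atTop.comp tendsto_natCast_atTop_atTop
  have hr0 : Tendsto r atTop (𝓝 0) := by
    rw [hr]
    simpa using ((hlogT.comp (tendsto_add_atTop_nat N₀)).inv_tendsto_atTop).const_mul K
  have hd : Tendsto driftMean atTop (𝓝 J) := (tendsto_add_atTop_iff_nat N₀).1 (by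
    simpa using hJ.add hr0)
  refine ⟨3 / 2 * Real.exp J, by positivity, ?_⟩
  have hmain : Tendsto (fun N : ℕ => primMean N / (Real.log N * Real.sqrt (Real.log N))) atTop
      (𝓝 (Real.exp J)) := by
    refine ((Real.continuous_exp.tendsto J).comp hd).congr' ?_
    filter_upwards [eventually_ge_atTop N₀, hlogT.eventually_gt_atTop 0] with N hN hl
    rw [Function.comp_apply, driftMean, Real.exp_sub, Real.exp_log (h N hN).2.1,
      mul_comm (3 / 2 : ℝ), ← Real.rpow_def_of_pos hl, show (3 / 2 : ℝ) = 1 + 1 / 2 by norm_num,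
      Real.rpow_add hl, Real.rpow_one, Real.sqrt_eq_rpow]
  have hzero : Tendsto (fun N : ℕ => logMean N / Real.sqrt (Real.log N) -
      3 / 2 * (primMean N / (Real.log N * Real.sqrt (Real.log N)))) atTop (𝓝 0) := by
    refine squeeze_zero_norm' ?_ (show Tendsto (fun N : ℕ => K *
      (primMean N / (Real.log N * Real.sqrt (Real.log N)) * (Real.log N)⁻¹)) atTop (𝓝 0) by
        simpa using (hmain.mul hlogT.inv_tendsto_atTop).const_mul K)
    filter_upwards [eventually_ge_atTop N₀, hlogT.eventually_gt_atTop 0] with N hN hl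
    have hs := Real.sqrt_pos.2 hl
    rw [Real.norm_eq_abs, show logMean N / Real.sqrt (Real.log N) -
      3 / 2 * (primMean N / (Real.log N * Real.sqrt (Real.log N))) =
        (logMean N - 3 / 2 * (primMean N / Real.log N)) / Real.sqrt (Real.log N) by
          field_simp, abs_div, abs_of_pos hs, div_le_iff₀ hs]
    refine (h N hN).2.2.trans (le_of_eq ?_)
    field_simp
  have h2 := hzero.add (hmain.const_mul (3 / 2))
  rw [zero_add] at h2
  exact h2.congr fun N => sub_add_cancel _ _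

end FA.LandauSquares
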