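import Fermat.Agent.LandauSquares.LogMean

/-!
# Landau's theorem on sums of two squares

From `f log = W * f` and `∑_(d ≤ y) W(d) ∼ y / 2` the count `S(N)` has
`S(N) log N = N L(N) / 2 + o (N L(N))`.
-/

set_option autoImplicit false

noncomputable section

namespace FA.LandauSquares

open Finset Filter
open scoped Topology

theorem exists_abs_sum_weight_sub_le {ε : ℝ} (hε : 0 < ε) :
    ∃ C : ℝ, ∀ q : ℕ, |∑ d ∈ Icc 1 q, weight d - (q : ℝ) / 2| ≤ ε * q + C := by
  obtain ⟨q₀, hq₀⟩ := eventually_atTop.1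
    ((Metric.tendsto_nhds.1 tendsto_sum_weight_div ε hε).and (eventually_ge_atTop 1))
  refine ⟨∑ d ∈ Icc 1 q₀, weight d + q₀, fun q => ?_⟩
  have h0 : (0 : ℝ) ≤ ∑ d ∈ Icc 1 q₀, weight d := sum_nonneg fun d _ => weight_nonneg d
  rcases lt_or_ge q q₀ with hq | hq
  · have h1 : ∑ d ∈ Icc 1 q, weight d ≤ ∑ d ∈ Icc 1 q₀, weight d :=
      sum_le_sum_of_subset_of_nonneg (Icc_subset_Icc_right hq.le) fun d _ _ => weight_nonneg d
    have h2 : (0 : ℝ) ≤ ∑ d ∈ Icc 1 q, weight d := sum_nonneg fun d _ => weight_nonneg d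
    have h3 : (q : ℝ) ≤ q₀ := Nat.cast_le.2 hq.le
    rw [abs_le]
    constructor <;> nlinarith [Nat.cast_nonneg (α := ℝ) q]
  · obtain ⟨h1, h2⟩ := hq₀ q hq
    have hq0 : (0 : ℝ) < q := Nat.cast_pos.2 h2
    rw [Real.dist_eq, div_sub' hq0.ne', abs_div, abs_of_pos hq0, div_lt_iff₀ hq0] at h1
    rw [show ∑ d ∈ Icc 1 q, weight d - (q : ℝ) / 2 =
      ∑ d ∈ Icc 1 q, weight d - q * (1 / 2) by ring]
    linarith [Nat.cast_nonneg (α := ℝ) q₀]

/-- `S(N) log N` against `N L(N) / 2`. -/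
theorem exists_abs_count_log_sub_le {ε : ℝ} (hε : 0 < ε) : ∃ C : ℝ, ∀ N : ℕ, 1 ≤ N →
    |(∑ n ∈ Icc 1 N, sqInd n) * Real.log N - N * logMean N / 2| ≤
      ε * (N * logMean N) + C * N := by
  obtain ⟨C, hC⟩ := exists_abs_sum_weight_sub_le hε
  refine ⟨C + 2, fun N hN => ?_⟩
  have hC0 : 0 ≤ C := by simpa using hC 0
  have e : ∑ n ∈ Icc 1 N, sqInd n * Real.log n =
      ∑ m ∈ Icc 1 N, sqInd m * ∑ d ∈ Icc 1 (N / m), weight d := by
    simp only [mul_sum]
    rw [← sum_divisors_swap N fun d m => sqInd m * weight d]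
    refine sum_congr rfl fun n hn => ?_
    rw [← sum_weight_mul_sqInd (show n ≠ 0 by have := (mem_Icc.1 hn).1; omega)]
    exact sum_congr rfl fun d _ => mul_comm _ _
  have hterm : ∀ m ∈ Icc 1 N, |sqInd m * ∑ d ∈ Icc 1 (N / m), weight d - N * (sqInd m / m) / 2| ≤
      ε * (N * (sqInd m / m)) + (C + 1) * 1 := by
    intro m hm
    rw [mem_Icc] at hm
    have hm0 : (0 : ℝ) < m := Nat.cast_pos.2 hm.1
    have hlo : ((N / m : ℕ) : ℝ) ≤ N / m := Nat.cast_div_le
    have hhi : (N : ℝ) / m ≤ ((N / m : ℕ) : ℝ) + 1 := by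
      rw [← Nat.floor_div_eq_div (K := ℝ)]
      exact (Nat.lt_floor_add_one _).le
    obtain ⟨h1, h2⟩ := abs_le.1 (hC (N / m))
    have h3 : |∑ d ∈ Icc 1 (N / m), weight d - (N / m : ℝ) / 2| ≤ ε * (N / m) + (C + 1) := by
      have := mul_le_mul_of_nonneg_left hlo hε.le
      rw [abs_le]
      constructor <;> linarith
    rw [show sqInd m * ∑ d ∈ Icc 1 (N / m), weight d - N * (sqInd m / m) / 2 =
      sqInd m * (∑ d ∈ Icc 1 (N / m), weight d - (N / m : ℝ) / 2) by ring, abs_mul,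
      abs_of_nonneg (sqInd_nonneg m)]
    refine (mul_le_mul_of_nonneg_left h3 (sqInd_nonneg m)).trans ?_
    rw [mul_add, mul_one, show sqInd m * (ε * ((N : ℝ) / m)) = ε * (N * (sqInd m / m)) by ring]
    exact add_le_add le_rfl (mul_le_of_le_one_left (by linarith) (sqInd_le_one m))
  have h := (abs_sum_le_sum_abs _ _).trans (sum_le_sum hterm)
  rw [sum_sub_distrib, ← e, ← sum_div, ← mul_sum, sum_add_distrib, ← mul_sum, ← mul_sum, sum_const,
    Nat.card_Icc, nsmul_eq_mul, mul_one, ← logMean, Nat.add_sub_cancel] at h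
  have hfac : 0 ≤ (∑ n ∈ Icc 1 N, sqInd n) * Real.log N - ∑ n ∈ Icc 1 N, sqInd n * Real.log n ∧
      (∑ n ∈ Icc 1 N, sqInd n) * Real.log N - ∑ n ∈ Icc 1 N, sqInd n * Real.log n ≤ N := by
    rw [sum_mul, ← sum_sub_distrib]
    have h1 : ∀ n ∈ Icc 1 N, 0 ≤ Real.log N - Real.log n := fun n hn => sub_nonneg.2
      (Real.log_le_log (Nat.cast_pos.2 (mem_Icc.1 hn).1) (Nat.cast_le.2 (mem_Icc.1 hn).2))
    refine ⟨sum_nonneg fun n hn => by
      rw [← mul_sub]; exact mul_nonneg (sqInd_nonneg n) (h1 n hn), ?_⟩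
    refine (sum_le_sum (g := fun n : ℕ => Real.log N - Real.log n) fun n hn => by
      rw [← mul_sub]; exact mul_le_of_le_one_left (h1 n hn) (sqInd_le_one n)).trans ?_
    rw [sum_sub_distrib, sum_const, Nat.card_Icc, Nat.add_sub_cancel, nsmul_eq_mul,
      ← Real.log_prod (fun n hn => Nat.cast_ne_zero.2 (by have := (mem_Icc.1 hn).1; omega)),
      ← Nat.cast_prod, ← Finset.Ico_add_one_right_eq_Icc, Finset.prod_Ico_id_eq_factorial]
    have h2 := Real.pow_div_factorial_le_exp (N : ℝ) (Nat.cast_nonneg N) N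
    have h3 := Real.log_le_log (div_pos (pow_pos (Nat.cast_pos.2 hN) N)
      (Nat.cast_pos.2 N.factorial_pos)) h2
    rw [Real.log_div (pow_ne_zero _ (Nat.cast_ne_zero.2 (by omega)))
      (Nat.cast_ne_zero.2 N.factorial_ne_zero), Real.log_exp, Real.log_pow] at h3
    exact h3
  obtain ⟨h4, h5⟩ := abs_le.1 h
  rw [abs_le]
  constructor <;> linarith [hfac.1, hfac.2, Nat.cast_nonneg (α := ℝ) N]

/-- **Landau's theorem.** -/
theorem exists_count_asymptotic : ∃ C : ℝ, 0 < C ∧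
    Tendsto (fun N : ℕ => (∑ n ∈ Icc 1 N, sqInd n) * Real.sqrt (Real.log N) / N) atTop (𝓝 C) ∧
    Tendsto (fun N : ℕ => logMean N / Real.sqrt (Real.log N)) atTop (𝓝 (2 * C)) := by
  obtain ⟨c, hc, hlim⟩ := exists_logMean_asymptotic
  refine ⟨c / 2, half_pos hc, ?_, by rwa [mul_div_cancel₀ c two_ne_zero]⟩
  have hlogT : Tendsto (fun N : ℕ => Real.log N) atTop atTop :=
    Real.tendsto_log_atTop.comp tendsto_natCast_atTop_atTop
  have hsT : Tendsto (fun N : ℕ => Real.sqrt (Real.log N)) atTop atTop :=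
    Real.tendsto_sqrt_atTop.comp hlogT
  have hzero : Tendsto (fun N : ℕ => (∑ n ∈ Icc 1 N, sqInd n) * Real.sqrt (Real.log N) / N -
      logMean N / Real.sqrt (Real.log N) / 2) atTop (𝓝 0) := by
    refine Metric.tendsto_nhds.2 fun η hη => ?_
    obtain ⟨C, hC⟩ := exists_abs_count_log_sub_le (show 0 < η / (2 * (c + 1)) by positivity)
    filter_upwards [eventually_ge_atTop 1, hlogT.eventually_gt_atTop 0,
      hlim.eventually (eventually_lt_nhds (lt_add_one c)),
      (hsT.const_div_atTop C).eventually (eventually_lt_nhds (half_pos hη))]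
      with N hN hl hL hC'
    have hs : 0 < Real.sqrt (Real.log N) := Real.sqrt_pos.2 hl
    have hN0 : (0 : ℝ) < N := Nat.cast_pos.2 hN
    have hsq : Real.sqrt (Real.log N) * Real.sqrt (Real.log N) = Real.log N :=
      Real.mul_self_sqrt hl.le
    rw [Real.dist_eq, sub_zero, show (∑ n ∈ Icc 1 N, sqInd n) * Real.sqrt (Real.log N) / N -
        logMean N / Real.sqrt (Real.log N) / 2 =
      ((∑ n ∈ Icc 1 N, sqInd n) * Real.log N - N * logMean N / 2) /
        (N * Real.sqrt (Real.log N)) by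
          field_simp
          linear_combination 2 * (∑ n ∈ Icc 1 N, sqInd n) * hsq,
      abs_div, abs_of_pos (mul_pos hN0 hs)]
    refine lt_of_le_of_lt (div_le_div_of_nonneg_right (hC N hN) (by positivity)) ?_
    rw [add_div, show η / (2 * (c + 1)) * (N * logMean N) / (N * Real.sqrt (Real.log N)) =
        η / (2 * (c + 1)) * (logMean N / Real.sqrt (Real.log N)) by field_simp,
      show C * N / (N * Real.sqrt (Real.log N)) = C / Real.sqrt (Real.log N) by field_simp]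
    have h1 : η / (2 * (c + 1)) * (logMean N / Real.sqrt (Real.log N)) ≤ η / 2 := by
      refine (mul_le_mul_of_nonneg_left hL.le (by positivity)).trans (le_of_eq ?_)
      field_simp
    linarith
  have h2 := hzero.add (hlim.div_const 2)
  rw [zero_add] at h2
  exact h2.congr fun N => sub_add_cancel _ _

end FA.LandauSquares
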