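import Fermat.Agent.LandauSquares.Indicator
import Fermat.Agent.ErdosKac.Mertens
import Fermat.Agent.Root.SummaryPrimeNumberTheorem
import Mathlib.Analysis.SpecialFunctions.Log.Monotone

/-!
# Mertens' theorem in the classes modulo 4

`∑ χ(d) Λ(d) / d` is bounded, since `L(1, χ) ∑_(d ≤ N) χ(d) Λ(d) / d` differs boundedly from the
alternating sum `∑_(n ≤ N) χ(n) log n / n`.
-/

set_option autoImplicit false

noncomputable section

namespace FA.LandauSquares

open Finset Filter
open scoped Topology ArithmeticFunction.vonMangoldt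

/-- The non-principal character modulo 4. -/
def chi (n : ℕ) : ℝ := if n % 4 = 1 then 1 else if n % 4 = 3 then -1 else 0

theorem chi_mul (a b : ℕ) : chi (a * b) = chi a * chi b := by
  have h := Nat.mul_mod a b 4
  rcases (show a % 4 = 0 ∨ a % 4 = 1 ∨ a % 4 = 2 ∨ a % 4 = 3 by omega) with ha | ha | ha | ha <;>
    rcases (show b % 4 = 0 ∨ b % 4 = 1 ∨ b % 4 = 2 ∨ b % 4 = 3 by omega) with hb | hb | hb | hb <;>
      simp [chi, h, ha, hb]

theorem abs_chi_le (n : ℕ) : |chi n| ≤ 1 := by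
  rw [chi]
  split_ifs <;> norm_num

theorem sum_chi_eq (m : ℕ) :
    ∑ i ∈ range m, chi i = if m % 4 = 2 ∨ m % 4 = 3 then 1 else 0 := by
  induction m with
  | zero => simp
  | succ m ih =>
    rw [sum_range_succ, ih, chi]
    rcases (show m % 4 = 0 ∨ m % 4 = 1 ∨ m % 4 = 2 ∨ m % 4 = 3 by omega) with h | h | h | h <;>
      simp [Nat.add_mod, h]

/-- Alternating sums. -/
theorem abs_sum_chi_mul_le {a : ℕ → ℝ} {k N : ℕ} (hkN : k ≤ N)
    (hanti : ∀ n, k ≤ n → a (n + 1) ≤ a n) (ha : 0 ≤ a N) :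
    |∑ n ∈ Ico k N, chi n * a n| ≤ a k := by
  obtain ⟨X, hX⟩ : ∃ X : ℕ → ℝ, X = fun m => ∑ i ∈ range m, chi i := ⟨_, rfl⟩
  have hXb : ∀ m, |X m - X k| ≤ 1 := fun m => by
    rw [hX]
    simp only [sum_chi_eq]
    split_ifs <;> norm_num
  have key : ∀ j, |∑ n ∈ Ico k (k + j), chi n * a n - (X (k + j) - X k) * a (k + j)| ≤
      a k - a (k + j) := by
    intro j
    induction j with
    | zero => simp
    | succ j ih =>
      rw [show k + (j + 1) = k + j + 1 by omega, sum_Ico_succ_top (Nat.le_add_right k j)]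
      have e : X (k + j + 1) = X (k + j) + chi (k + j) := by rw [hX]; exact sum_range_succ _ _
      have h1 := abs_le.1 ih
      have h2 := abs_le.1 (hXb (k + j + 1))
      have h3 := hanti (k + j) (Nat.le_add_right k j)
      rw [e] at h2 ⊢
      rw [abs_le]
      constructor <;>
        nlinarith [mul_le_mul_of_nonneg_right h2.1 (sub_nonneg.2 h3),
          mul_le_mul_of_nonneg_right h2.2 (sub_nonneg.2 h3)]
  obtain ⟨j, rfl⟩ := Nat.le.dest hkN
  have h1 := abs_le.1 (key j)
  have h2 := abs_le.1 (hXb (k + j))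
  rw [abs_le]
  constructor <;> nlinarith [mul_le_mul_of_nonneg_right h2.1 ha, mul_le_mul_of_nonneg_right h2.2 ha]

/-- The partial sums of `L(1, χ)`. -/
def chiHarm (N : ℕ) : ℝ := ∑ n ∈ Icc 1 N, chi n / n

theorem abs_chiHarm_sub_le {M N : ℕ} (h : N ≤ M) :
    |chiHarm M - chiHarm N| ≤ 1 / (N + 1 : ℕ) := by
  have e : chiHarm M - chiHarm N = ∑ n ∈ Ico (N + 1) (M + 1), chi n * (1 / (n : ℝ)) := by
    rw [chiHarm, chiHarm, ← Finset.Ico_add_one_right_eq_Icc, ← Finset.Ico_add_one_right_eq_Icc,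
      ← sum_Ico_consecutive _ (show 1 ≤ N + 1 by omega) (show N + 1 ≤ M + 1 by omega),
      add_sub_cancel_left]
    exact sum_congr rfl fun n _ => by rw [mul_one_div]
  rw [e]
  refine abs_sum_chi_mul_le (a := fun n => 1 / (n : ℝ)) (by omega) (fun n hn => ?_) (by positivity)
  exact div_le_div_of_nonneg_left zero_le_one (Nat.cast_pos.2 (by omega))
    (Nat.cast_le.2 (Nat.le_succ n))

/-- `L(1, χ)`. -/
theorem exists_chiHarm_limit :
    ∃ l : ℝ, 0 < l ∧ ∀ N : ℕ, |chiHarm N - l| ≤ 1 / (N + 1 : ℕ) := by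
  have hcs : CauchySeq chiHarm := by
    refine cauchySeq_of_le_tendsto_0' (fun N => 1 / ((N + 1 : ℕ) : ℝ)) (fun n m hnm => ?_) ?_
    · rw [Real.dist_eq, abs_sub_comm]
      exact abs_chiHarm_sub_le hnm
    · exact_mod_cast tendsto_one_div_add_atTop_nhds_zero_nat (𝕜 := ℝ)
  obtain ⟨l, hl⟩ := cauchySeq_tendsto_of_complete hcs
  have hb : ∀ N : ℕ, |chiHarm N - l| ≤ 1 / (N + 1 : ℕ) := fun N => by
    rw [abs_sub_comm]
    exact le_of_tendsto ((hl.sub_const (chiHarm N)).abs)
      ((eventually_ge_atTop N).mono fun M hM => abs_chiHarm_sub_le hM)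
  refine ⟨l, ?_, hb⟩
  have h := abs_le.1 (hb 3)
  have e : chiHarm 3 = 2 / 3 := by
    norm_num [chiHarm, chi, show Icc 1 3 = ({1, 2, 3} : Finset ℕ) from rfl]
  rw [e] at h
  norm_num at h
  linarith

theorem exists_abs_sum_chi_log_le :
    ∃ C : ℝ, ∀ N : ℕ, |∑ n ∈ Icc 1 N, chi n * (Real.log n / n)| ≤ C := by
  refine ⟨Real.log 3 / 3 + 3, fun N => ?_⟩
  have hb : ∀ n : ℕ, |chi n * (Real.log n / n)| ≤ 1 := fun n => by
    rw [abs_mul, abs_of_nonneg (div_nonneg (Real.log_natCast_nonneg n) (Nat.cast_nonneg n))]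
    refine mul_le_one₀ (abs_chi_le n) (div_nonneg (Real.log_natCast_nonneg n) (Nat.cast_nonneg n))
      (div_le_one_of_le₀ ?_ (Nat.cast_nonneg n))
    rcases Nat.eq_zero_or_pos n with rfl | hn
    · simp
    · linarith [Real.log_le_sub_one_of_pos (Nat.cast_pos.2 hn : (0 : ℝ) < n)]
  rcases lt_or_ge N 3 with hN | hN
  · refine le_trans ((abs_sum_le_sum_abs _ _).trans (sum_le_card_nsmul _ _ 1 fun n _ => hb n)) ?_
    rw [Nat.card_Icc, nsmul_eq_mul, mul_one]
    have : ((N + 1 - 1 : ℕ) : ℝ) ≤ 3 := Nat.cast_le_ofNat.2 (by omega)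
    have : 0 ≤ Real.log 3 / 3 := by positivity
    linarith
  rw [← Finset.Ico_add_one_right_eq_Icc, ← sum_Ico_consecutive _ (show 1 ≤ 3 by norm_num)
    (show 3 ≤ N + 1 by omega)]
  refine (abs_add_le _ _).trans (le_of_le_of_eq (add_le_add ?_ ?_) (add_comm _ _))
  · refine (abs_sum_le_sum_abs _ _).trans ((sum_le_card_nsmul _ _ 1 fun n _ => hb n).trans ?_)
    norm_num
  · refine le_of_le_of_eq (abs_sum_chi_mul_le (a := fun n => Real.log n / n) (by omega)
      (fun n hn => ?_) (div_nonneg (Real.log_natCast_nonneg _) (Nat.cast_nonneg _))) (by norm_num)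
    have hn3 : (3 : ℝ) ≤ n := Nat.ofNat_le_cast.2 hn
    refine Real.log_div_self_antitoneOn ?_ ?_ (Nat.cast_le.2 (Nat.le_succ n))
    · exact le_trans Real.exp_one_lt_three.le hn3
    · exact le_trans Real.exp_one_lt_three.le (hn3.trans (Nat.cast_le.2 (Nat.le_succ n)))

/-- The twisted sum. -/
def twisted (N : ℕ) : ℝ := ∑ d ∈ Icc 1 N, Λ d * chi d / d

theorem exists_abs_twisted_le : ∃ C : ℝ, ∀ N : ℕ, |twisted N| ≤ C := by
  obtain ⟨l, hl, hlim⟩ := exists_chiHarm_limit
  obtain ⟨C, hC⟩ := exists_abs_sum_chi_log_le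
  refine ⟨(C + (Real.log 4 + 4)) / l, fun N => ?_⟩
  rw [le_div_iff₀ hl]
  have e : ∑ n ∈ Icc 1 N, chi n * (Real.log n / n) =
      ∑ m ∈ Icc 1 N, ∑ d ∈ Icc 1 (N / m), Λ d * chi d / d * (chi m / m) := by
    rw [← sum_divisors_swap N fun d m => Λ d * chi d / d * (chi m / m)]
    refine sum_congr rfl fun n hn => ?_
    rw [← ArithmeticFunction.vonMangoldt_sum, sum_div, mul_sum]
    refine sum_congr rfl fun d hd => ?_
    obtain ⟨m, rfl⟩ := (Nat.mem_divisors.1 hd).1
    rw [Nat.mul_div_cancel_left m (Nat.pos_of_mem_divisors hd), chi_mul, Nat.cast_mul]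
    ring
  have e2 : ∑ m ∈ Icc 1 N, ∑ d ∈ Icc 1 (N / m), Λ d * chi d / d * (chi m / m) =
      ∑ d ∈ Icc 1 N, Λ d * chi d / d * chiHarm (N / d) := by
    simp only [chiHarm, mul_sum]
    refine sum_comm' fun m d => ?_
    simp only [mem_Icc]
    constructor
    · rintro ⟨⟨hm, hmN⟩, hd, hdN⟩
      rw [Nat.le_div_iff_mul_le (by omega)] at hdN
      have := Nat.le_mul_of_pos_right d hm
      exact ⟨⟨hm, (Nat.le_div_iff_mul_le (by omega)).2 (by linarith)⟩, hd, by omega⟩
    · rintro ⟨⟨hm, hmN⟩, hd, hdN⟩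
      rw [Nat.le_div_iff_mul_le (by omega)] at hmN
      have := Nat.le_mul_of_pos_right m hd
      exact ⟨⟨hm, by omega⟩, hd, (Nat.le_div_iff_mul_le (by omega)).2 (by linarith)⟩
  have herr : |∑ d ∈ Icc 1 N, Λ d * chi d / d * (chiHarm (N / d) - l)| ≤ Real.log 4 + 4 := by
    rcases Nat.eq_zero_or_pos N with rfl | hN
    · simp
      positivity
    refine (abs_sum_le_sum_abs _ _).trans 
      ((sum_le_sum (g := fun d => Λ d / N) fun d hd => ?_).trans ?_)
    · rw [mem_Icc] at hd
      have hd0 : (0 : ℝ) < d := Nat.cast_pos.2 hd.1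
      rw [abs_mul, abs_div, abs_mul, abs_of_nonneg ArithmeticFunction.vonMangoldt_nonneg,
        abs_of_nonneg hd0.le]
      refine (mul_le_mul (div_le_div_of_nonneg_right (mul_le_of_le_one_right
        ArithmeticFunction.vonMangoldt_nonneg (abs_chi_le d)) hd0.le) (hlim (N / d))
        (abs_nonneg _) (div_nonneg ArithmeticFunction.vonMangoldt_nonneg hd0.le)).trans ?_
      rw [div_mul_div_comm, mul_one]
      refine div_le_div_of_nonneg_left ArithmeticFunction.vonMangoldt_nonneg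
        (Nat.cast_pos.2 hN) ?_
      rw [← Nat.cast_mul]
      exact Nat.cast_le.2 (by linarith [Nat.lt_div_mul_add (a := N) hd.1])
    · rw [← sum_div, div_le_iff₀ (Nat.cast_pos.2 hN)]
      refine le_trans (le_of_eq ?_) (Chebyshev.psi_le_const_mul_self (Nat.cast_nonneg N))
      rw [Chebyshev.psi, Nat.floor_natCast]
      exact sum_congr rfl fun _ _ => rfl
  have h := hC N
  rw [e, e2] at h
  simp only [mul_sub, sum_sub_distrib, ← sum_mul] at herr
  rw [twisted]
  obtain ⟨h1, h2⟩ := abs_le.1 h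
  obtain ⟨h3, h4⟩ := abs_le.1 herr
  refine le_of_eq_of_le (by rw [abs_mul, abs_of_pos hl] :
    |∑ d ∈ Icc 1 N, Λ d * chi d / d| * l = |(∑ d ∈ Icc 1 N, Λ d * chi d / d) * l|) ?_
  rw [abs_le]
  constructor <;> linarith

/-- The part of `Λ` supported on the non-primes and on `2`. -/
def smallPart (d : ℕ) : ℝ := if d.Prime ∧ d ≠ 2 then 0 else 2 * Λ d

theorem abs_weight_sub_le (d : ℕ) :
    |weight d - (Λ d + Λ d * chi d) / 2| ≤ smallPart d := by
  have h0 : (0 : ℝ) ≤ Λ d := ArithmeticFunction.vonMangoldt_nonneg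
  have hc := abs_le.1 (abs_chi_le d)
  rw [smallPart]
  split_ifs with h
  · rw [weight, h.1.minFac_eq, h.1.factorization_self, chi]
    rcases h.1.eq_two_or_odd with h2 | h2
    · exact absurd h2 h.2
    rcases (show d % 4 = 1 ∨ d % 4 = 3 by omega) with h4 | h4 <;> simp [h4]
  · have h1 : weight d ≤ 2 * Λ d := by
      rw [weight, mul_comm]
      refine mul_le_mul_of_nonneg_right ?_ h0
      split_ifs <;> norm_num
    have h2 := weight_nonneg d
    rw [abs_le]
    constructor <;> nlinarith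

theorem exists_sum_smallPart_div_le :
    ∃ C : ℝ, ∀ N : ℕ, ∑ d ∈ Icc 1 N, smallPart d / d ≤ C := by
  obtain ⟨C, hC⟩ := ErdosKac.exists_abs_sum_log_div_sub_le
  refine ⟨2 * (6 + C + Real.log 2), fun N => ?_⟩
  have hC0 : 0 ≤ C := (abs_nonneg _).trans (hC 1 le_rfl)
  rcases Nat.eq_zero_or_pos N with rfl | hN
  · simp
    positivity
  have e : ∀ d ∈ Icc 1 N, smallPart d / d ≤ 2 * (Λ d / d -
      (if d.Prime then Real.log d / d else 0) + if d = 2 then Real.log 2 else 0) := by
    intro d _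
    rw [smallPart]
    by_cases hp : d.Prime
    · rw [ArithmeticFunction.vonMangoldt_apply_prime hp, if_pos hp, sub_self, zero_add]
      by_cases h2 : d = 2
      · subst h2
        rw [if_neg (by simp), if_pos rfl]
        push_cast
        linarith [Real.log_pos one_lt_two]
      · rw [if_pos ⟨hp, h2⟩, if_neg h2, zero_div, mul_zero]
    · rw [if_neg (fun h => hp h.1), if_neg hp, sub_zero]
      have : 0 ≤ (if d = 2 then Real.log 2 else 0 : ℝ) := by split_ifs <;> positivity
      rw [mul_div_assoc]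
      linarith
  refine (sum_le_sum e).trans ?_
  rw [← mul_sum, sum_add_distrib, sum_sub_distrib, ← sum_filter, sum_ite_eq']
  refine mul_le_mul_of_nonneg_left ?_ two_pos.le
  have h1 := abs_le.1 (PrimesMinusOne.abs_sum_vonMangoldt_div_sub_le (show 1 ≤ N from hN))
  have h2 := abs_le.1 (hC N hN)
  rw [ErdosKac.primesUpTo] at h2
  rw [show Ioc 0 N = Icc 1 N from (Finset.Icc_add_one_left_eq_Ioc 0 N).symm] at h1
  have h3 : (if 2 ∈ Icc 1 N then Real.log 2 else 0 : ℝ) ≤ Real.log 2 := by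
    split_ifs
    · exact le_rfl
    · positivity
  linarith

theorem sum_smallPart_le (N : ℕ) (hN : 1 ≤ N) :
    ∑ d ∈ Icc 1 N, smallPart d ≤ 4 * Real.sqrt N * Real.log N + 2 := by
  have hN' : (1 : ℝ) ≤ N := Nat.one_le_cast.2 hN
  have e : ∀ d ∈ Icc 1 N, smallPart d ≤ 2 * (Λ d -
      (if d.Prime then Real.log d else 0) + if d = 2 then Real.log 2 else 0) := by
    intro d _
    rw [smallPart]
    by_cases hp : d.Prime
    · rw [ArithmeticFunction.vonMangoldt_apply_prime hp, if_pos hp, sub_self, zero_add]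
      by_cases h2 : d = 2
      · subst h2
        rw [if_neg (by simp), if_pos rfl]
        push_cast
        rfl
      · rw [if_pos ⟨hp, h2⟩, if_neg h2, mul_zero]
    · rw [if_neg (fun h => hp h.1), if_neg hp, sub_zero]
      have : 0 ≤ (if d = 2 then Real.log 2 else 0 : ℝ) := by split_ifs <;> positivity
      linarith
  refine (sum_le_sum e).trans ?_
  rw [← mul_sum, sum_add_distrib, sum_sub_distrib, ← sum_filter, sum_ite_eq']
  have h := Chebyshev.psi_sub_theta_le hN'
  rw [Chebyshev.psi, Chebyshev.theta, Nat.floor_natCast,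
    show Ioc 0 N = Icc 1 N from (Finset.Icc_add_one_left_eq_Ioc 0 N).symm] at h
  have h3 : (if 2 ∈ Icc 1 N then Real.log 2 else 0 : ℝ) ≤ 1 := by
    split_ifs
    · linarith [Real.log_two_lt_d9]
    · norm_num
  linarith

/-- **Mertens' theorem for the weight**: `∑_(d ≤ N) W(d) / d = (log N) / 2 + O(1)`. -/
theorem exists_abs_sum_weight_div_sub_le : ∃ C : ℝ, ∀ N : ℕ, 1 ≤ N →
    |∑ d ∈ Icc 1 N, weight d / d - Real.log N / 2| ≤ C := by
  obtain ⟨T, hT⟩ := exists_abs_twisted_le
  obtain ⟨E, hE⟩ := exists_sum_smallPart_div_le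
  refine ⟨3 + T / 2 + E, fun N hN => ?_⟩
  have h1 := abs_le.1 (PrimesMinusOne.abs_sum_vonMangoldt_div_sub_le hN)
  rw [show Ioc 0 N = Icc 1 N from (Finset.Icc_add_one_left_eq_Ioc 0 N).symm] at h1
  have h2 := abs_le.1 (hT N)
  have h3 : |∑ d ∈ Icc 1 N, (weight d - (Λ d + Λ d * chi d) / 2) / (d : ℝ)| ≤ E :=
    (abs_sum_le_sum_abs _ _).trans ((sum_le_sum fun d _ => by
      rw [abs_div, Nat.abs_cast]
      exact div_le_div_of_nonneg_right (abs_weight_sub_le d) (Nat.cast_nonneg d)).trans (hE N))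
  have e : ∑ d ∈ Icc 1 N, (weight d - (Λ d + Λ d * chi d) / 2) / (d : ℝ) =
      ∑ d ∈ Icc 1 N, weight d / d - (∑ d ∈ Icc 1 N, Λ d / d + twisted N) / 2 := by
    rw [twisted, ← sum_add_distrib, sum_div, ← sum_sub_distrib]
    exact sum_congr rfl fun d _ => by ring
  rw [e] at h3
  have h4 := abs_le.1 h3
  rw [abs_le]
  constructor <;> linarith

/-- **The prime number theorem for the weight**: `∑_(d ≤ N) W(d) ∼ N / 2`. -/
theorem tendsto_sum_weight_div :
    Tendsto (fun N : ℕ => (∑ d ∈ Icc 1 N, weight d) / N) atTop (𝓝 (1 / 2)) := by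
  have h1 := (PNT.tendsto_psiClass (1 : ZMod 4) isUnit_one).comp tendsto_natCast_atTop_atTop
  rw [show ((4 : ℕ).totient : ℝ)⁻¹ = 1 / 2 by
    rw [show (4 : ℕ) = 2 ^ 2 from rfl, Nat.totient_prime_pow Nat.prime_two two_pos]; norm_num] at h1
  have h2 : Tendsto (fun N : ℕ => (4 * Real.sqrt N * Real.log N + 2) / N) atTop (𝓝 0) := by
    have e :=
      ((isLittleO_log_rpow_atTop (show (0 : ℝ) < 1 / 2 by norm_num)).tendsto_div_nhds_zero.comp
      (tendsto_natCast_atTop_atTop (R := ℝ))).const_mul 4 |>.add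
        (tendsto_const_div_atTop_nhds_zero_nat (2 : ℝ))
    rw [mul_zero, add_zero] at e
    refine e.congr' ?_
    filter_upwards [eventually_gt_atTop 0] with N hN
    simp only [Function.comp_apply]
    rw [← Real.sqrt_eq_rpow]
    have hs : Real.sqrt N * Real.sqrt N = N := Real.mul_self_sqrt (Nat.cast_nonneg N)
    have hs0 : (0 : ℝ) < Real.sqrt N := Real.sqrt_pos.2 (Nat.cast_pos.2 hN)
    rw [add_div]
    congr 1
    rw [mul_div_assoc', div_eq_div_iff hs0.ne' (Nat.cast_pos.2 hN).ne']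
    linear_combination (-4 * Real.log N) * hs
  have h3 : Tendsto (fun N : ℕ => (∑ d ∈ Icc 1 N, weight d) / N -
      PNT.psiClass (1 : ZMod 4) N / N) atTop (𝓝 0) := by
    refine squeeze_zero_norm' ?_ h2
    filter_upwards [eventually_ge_atTop 1] with N hN
    rw [Real.norm_eq_abs, ← sub_div, abs_div, Nat.abs_cast]
    refine div_le_div_of_nonneg_right (le_trans ?_ (sum_smallPart_le N hN)) (Nat.cast_nonneg N)
    rw [PNT.psiClass, Nat.floor_natCast, ← sum_sub_distrib]
    refine (abs_sum_le_sum_abs _ _).trans (sum_le_sum fun d _ => ?_)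
    have hres : ArithmeticFunction.vonMangoldt.residueClass (1 : ZMod 4) d =
        if d % 4 = 1 then Λ d else 0 := by
      rw [ArithmeticFunction.vonMangoldt.residueClass, Set.indicator_apply]
      refine if_congr ?_ rfl rfl
      rw [Set.mem_ofPred_eq, show (1 : ZMod 4) = ((1 : ℕ) : ZMod 4) by simp,
        ZMod.natCast_eq_natCast_iff']
    rw [hres, smallPart]
    have h0 : (0 : ℝ) ≤ Λ d := ArithmeticFunction.vonMangoldt_nonneg
    split_ifs with h4 hp hp
    · have := abs_weight_sub_le d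
      rw [smallPart, if_pos hp, chi, if_pos h4] at this
      rw [abs_le] at this ⊢
      constructor <;> linarith
    · have h1 := weight_nonneg d
      have h2 : weight d ≤ 2 * Λ d := by
        rw [weight, mul_comm]
        exact mul_le_mul_of_nonneg_right (by split_ifs <;> norm_num) h0
      rw [abs_le]
      constructor <;> linarith
    · have := abs_weight_sub_le d
      rw [smallPart, if_pos hp, chi, if_neg h4,
        if_pos (show d % 4 = 3 by
          rcases hp.1.eq_two_or_odd with h | h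
          · exact absurd h hp.2
          · omega)] at this
      rw [abs_le] at this ⊢
      constructor <;> linarith
    · have h1 := weight_nonneg d
      rw [sub_zero, abs_of_nonneg h1, weight, mul_comm]
      exact mul_le_mul_of_nonneg_right (by split_ifs <;> norm_num) h0
  simpa using h3.add h1

end FA.LandauSquares
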